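/-
Absolutely irreducible residual representations have full image span, and the trace pairing
on a rank two free module detects zero.
-/
import Mathlib.RingTheory.SimpleModule.Basic
import Mathlib.RepresentationTheory.AlgebraRepresentation.Basic
import Mathlib.RingTheory.Nakayama
import Mathlib.LinearAlgebra.Matrix.Trace
import Fermat.Prelude.Def_GaloisRep_Adic

set_option autoImplicit false

namespace Fermat.Agent.TraceFn

open scoped TensorProduct

section Burnside

variable {K : Type*} [Field K] [IsAlgClosed K] {V : Type*} [AddCommGroup V] [Module K V]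
  [FiniteDimensional K V] [Nontrivial V] {G : Type*} [Monoid G]

/-- Burnside: an irreducible family of operators over an algebraically closed field spans all
endomorphisms. -/
theorem span_range_eq_top_of_irreducible (ρ : G →* Module.End K V)
    (hirr : ∀ W : Submodule K V, (∀ g : G, ∀ x ∈ W, ρ g x ∈ W) → W = ⊥ ∨ W = ⊤) :
    Submodule.span K (Set.range ρ) = ⊤ := by
  set A : Subalgebra K (Module.End K V) := Algebra.adjoin K (Set.range ρ) with hA
  have hAspan : A.toSubmodule = Submodule.span K (Set.range ρ) := by
    rw [hA, Algebra.adjoin_eq_span, ← MonoidHom.coe_mrange, Submonoid.closure_eq]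
  have hmem : ∀ g, ρ g ∈ A := fun g => Algebra.subset_adjoin ⟨g, rfl⟩
  have : IsSimpleModule A V := by
    rw [isSimpleModule_iff]
    refine { exists_pair_ne := ⟨⊥, ⊤, bot_ne_top⟩, eq_bot_or_eq_top := fun W => ?_ }
    rcases hirr (W.restrictScalars K) (fun g x hx => W.smul_mem (⟨ρ g, hmem g⟩ : A) hx) with h | h
    · exact Or.inl (Submodule.restrictScalars_injective K A V (h.trans (Submodule.restrictScalars_bot K A V).symm))
    · exact Or.inr (Submodule.restrictScalars_injective K A V (h.trans (Submodule.restrictScalars_top K A V).symm))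
  rw [eq_top_iff, ← hAspan]
  intro f _
  have hscal : ∀ e : Module.End A V, ∃ c : K, ∀ v, e v = c • v := fun e => by
    obtain ⟨c, rfl⟩ := (IsSimpleModule.algebraMap_end_bijective_of_isAlgClosed K).2 e
    exact ⟨c, fun v => rfl⟩
  let f' : Module.End (Module.End A V) V :=
    { toFun := f
      map_add' := map_add f
      map_smul' := fun e v => by
        obtain ⟨c, hc⟩ := hscal e
        simp [Module.End.smul_def, hc] }
  obtain ⟨s, hs⟩ := (Module.Finite.fg_top : (⊤ : Submodule K V).FG)
  obtain ⟨a, ha⟩ := jacobson_density f' s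
  have hfa : f = (a : Module.End K V) := LinearMap.ext_on hs fun m hm => ha m hm
  rw [hfa]
  exact a.2

end Burnside

section Adic

variable {A : Type} [CommRing A] [IsLocalRing A]

/-- If the residual representation is absolutely irreducible then the image of the representation
spans the matrix algebra. -/
theorem span_range_toMatrix_eq_top (ρ : GaloisRepAdic A) (h : ρ.residual.IsAbsolutelyIrreducible)
    (b : Module.Basis (Fin 2) A ρ.V) :
    Submodule.span A (Set.range fun g => LinearMap.toMatrix b b (ρ.ρ g)) = ⊤ := by
  classical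
  set k := IsLocalRing.ResidueField A with hk
  set K := AlgebraicClosure k with hK
  -- matrices of the residual representation, and over the algebraic closure
  let res : A →+* k := IsLocalRing.residue A
  set M : (AlgebraicClosure ℚ ≃ₐ[ℚ] AlgebraicClosure ℚ) → Matrix (Fin 2) (Fin 2) A :=
    fun g => LinearMap.toMatrix b b (ρ.ρ g) with hM
  let bk : Module.Basis (Fin 2) k (k ⊗[A] ρ.V) := b.baseChange k
  let bK : Module.Basis (Fin 2) K (K ⊗[k] (k ⊗[A] ρ.V)) := bk.baseChange K
  have hfull : Submodule.span K
      (Set.range fun g => ((M g).map res).map (algebraMap k K)) = ⊤ := by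
    have : Nontrivial (ρ.residual.baseChange K).V := bK.repr.toEquiv.nontrivial
    have : FiniteDimensional K (ρ.residual.baseChange K).V := Module.Finite.of_basis bK
    have hspan := span_range_eq_top_of_irreducible
      (K := K) ((ρ.residual.baseChange K).ρ) h
    let e : Module.End K (ρ.residual.baseChange K).V ≃ₗ[K] Matrix (Fin 2) (Fin 2) K :=
      LinearMap.toMatrix bK bK
    have := congrArg (Submodule.map e.toLinearMap) hspan
    rw [Submodule.map_span, Submodule.map_top, LinearEquiv.range, ← Set.range_comp] at this
    rw [← this]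
    congr 2
    funext g
    show _ = LinearMap.toMatrix bK bK (((ρ.ρ g).baseChange k).baseChange K)
    ext i j
    simp [LinearMap.toMatrix_apply, bK, bk, M, res, Algebra.smul_def, k]
  have hk_full : Submodule.span k (Set.range fun g => (M g).map res) = ⊤ := by
    by_contra hne
    obtain ⟨φ, hφ0, hφ⟩ := Submodule.exists_le_ker_of_lt_top _ (lt_of_le_of_ne le_top hne)
    apply hφ0
    let X : Matrix (Fin 2) (Fin 2) k := fun i j => φ (Matrix.single j i 1)
    have hXφ : ∀ Y, φ Y = (X * Y).trace := fun Y => by
      conv_lhs => rw [Matrix.matrix_eq_sum_single Y]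
      rw [map_sum]
      simp only [map_sum, Matrix.trace, Matrix.diag, Matrix.mul_apply]
      rw [Finset.sum_comm]
      refine Finset.sum_congr rfl fun i _ => Finset.sum_congr rfl fun j _ => ?_
      rw [show Matrix.single j i (Y j i) = Y j i • Matrix.single j i (1 : k) by
        simp [Matrix.smul_single], map_smul, smul_eq_mul, mul_comm]
    let XK := X.map (algebraMap k K)
    let φK : Matrix (Fin 2) (Fin 2) K →ₗ[K] K :=
      (Matrix.traceLinearMap (Fin 2) K K).comp (LinearMap.mulLeft K XK)
    have hφK : φK = 0 := by
      refine LinearMap.ext_on hfull ?_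
      rintro _ ⟨g, rfl⟩
      show (XK * ((M g).map res).map (algebraMap k K)).trace = 0
      rw [← Matrix.map_mul, ← AddMonoidHom.map_trace, ← hXφ, LinearMap.mem_ker.mp
        (hφ (Submodule.subset_span ⟨g, rfl⟩)), map_zero]
    refine LinearMap.ext fun Y => ?_
    have h0 : (XK * Y.map (algebraMap k K)).trace = 0 := LinearMap.congr_fun hφK (Y.map (algebraMap k K))
    rw [← Matrix.map_mul, ← AddMonoidHom.map_trace, ← hXφ] at h0
    simpa using h0
  -- Nakayama
  refine top_unique (Submodule.le_of_le_smul_of_le_jacobson_bot (I := IsLocalRing.maximalIdeal A)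
    Module.Finite.fg_top (IsLocalRing.maximalIdeal_le_jacobson _) ?_)
  intro Y _
  have hY : Y.map res ∈ Submodule.span k (Set.range fun g => (M g).map res) := by
    rw [hk_full]; trivial
  obtain ⟨c, hc⟩ := (Finsupp.mem_span_range_iff_exists_finsupp).mp hY
  choose c' hc' using fun g => IsLocalRing.residue_surjective (c g)
  set Z := ∑ g ∈ c.support, c' g • M g with hZ
  have hZmem : Z ∈ Submodule.span A (Set.range M) :=
    Submodule.sum_mem _ fun g _ => Submodule.smul_mem _ _ (Submodule.subset_span ⟨g, rfl⟩)
  have hdiff : ∀ i j, (Y - Z) i j ∈ IsLocalRing.maximalIdeal A := fun i j => by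
    rw [← IsLocalRing.residue_eq_zero_iff, Matrix.sub_apply, map_sub, sub_eq_zero]
    have := congrArg (fun W : Matrix (Fin 2) (Fin 2) k => W i j) hc
    simp only [Finsupp.sum, Matrix.sum_apply, Matrix.smul_apply, Matrix.map_apply,
      smul_eq_mul] at this
    rw [show res = IsLocalRing.residue A from rfl] at this
    rw [hZ, Matrix.sum_apply, map_sum, ← this]
    simp [hc', smul_eq_mul]
  rw [← add_sub_cancel Z Y]
  refine Submodule.add_mem_sup hZmem ?_
  rw [Matrix.matrix_eq_sum_single (Y - Z)]
  refine Submodule.sum_mem _ fun i _ => Submodule.sum_mem _ fun j _ => ?_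
  rw [show Matrix.single i j ((Y - Z) i j) = (Y - Z) i j • Matrix.single i j (1 : A) by
    simp [Matrix.smul_single]]
  exact Submodule.smul_mem_smul (hdiff i j) Submodule.mem_top

/-- An endomorphism orthogonal to the image of a residually absolutely irreducible representation
under the trace pairing is zero. -/
theorem eq_zero_of_forall_trace_mul_eq_zero (ρ : GaloisRepAdic A)
    (h : ρ.residual.IsAbsolutelyIrreducible) (d : Module.End A ρ.V)
    (hd : ∀ g, LinearMap.trace A ρ.V (ρ.ρ g * d) = 0) : d = 0 := by
  classical
  let b : Module.Basis (Fin 2) A ρ.V := Module.finBasisOfFinrankEq A ρ.V ρ.finrank_eq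
  set D := LinearMap.toMatrix b b d with hD
  let φ : Matrix (Fin 2) (Fin 2) A →ₗ[A] A :=
    (Matrix.traceLinearMap (Fin 2) A A).comp (LinearMap.mulRight A D)
  have hφ : φ = 0 := by
    refine LinearMap.ext_on (span_range_toMatrix_eq_top ρ h b) ?_
    rintro _ ⟨g, rfl⟩
    show (LinearMap.toMatrix b b (ρ.ρ g) * D).trace = 0
    rw [hD, ← LinearMap.toMatrix_mul, ← LinearMap.trace_eq_matrix_trace]
    exact hd g
  refine (LinearMap.toMatrix b b).injective ?_
  rw [map_zero, ← hD]
  ext i j
  have := LinearMap.congr_fun hφ (Matrix.single j i 1)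
  fin_cases i <;> fin_cases j <;>
    simpa [φ, Matrix.trace, Matrix.mul_apply, Matrix.single_apply] using this

end Adic

end Fermat.Agent.TraceFn
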