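/-
The mod `p ^ n` cyclotomic exponent on the absolute Galois group of `ℚ`: value at Frobenius
elements, triviality on inertia away from `p`, finite level.
-/
import Mathlib.RingTheory.Polynomial.Cyclotomic.Roots
import Mathlib.RingTheory.RootsOfUnity.AlgebraicallyClosed
import Mathlib.NumberTheory.Cyclotomic.Basic
import Fermat.Prelude.Def_GaloisRep_Residual

set_option autoImplicit false

namespace Fermat.Agent.TraceFn

local notation "Qbar" => AlgebraicClosure ℚ
local notation "Γℚ" => AlgebraicClosure ℚ ≃ₐ[ℚ] AlgebraicClosure ℚ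

variable (p : ℕ) [hp : Fact p.Prime] (n : ℕ)

theorem exists_zetaPow : ∃ ζ : Qbar, IsPrimitiveRoot ζ (p ^ n) :=
  haveI : NeZero (p ^ n) := ⟨pow_ne_zero _ hp.out.ne_zero⟩
  haveI : NeZero ((p ^ n : ℕ) : Qbar) := NeZero.charZero
  HasEnoughRootsOfUnity.exists_primitiveRoot Qbar (p ^ n)

theorem modEq_of_primitive_pow_eq {R : Type*} [CommMonoid R] {ζ : R} {k : ℕ} [NeZero k]
    (h : IsPrimitiveRoot ζ k) {i j : ℕ} (hij : ζ ^ i = ζ ^ j) : i ≡ j [MOD k] := by
  rw [h.eq_orderOf]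
  exact ((isOfFinOrder_iff_pow_eq_one.mpr ⟨k, NeZero.pos k, h.pow_eq_one⟩).pow_eq_pow_iff_modEq).mp hij

/-- A chosen primitive `p ^ n`-th root of unity. -/
noncomputable def zetaPow : Qbar := (exists_zetaPow p n).choose

theorem zetaPow_spec : IsPrimitiveRoot (zetaPow p n) (p ^ n) := (exists_zetaPow p n).choose_spec

/-- The mod `p ^ n` cyclotomic exponent. -/
noncomputable def cycExp : Γℚ →* ZMod (p ^ n) :=
  haveI : NeZero (p ^ n) := ⟨pow_ne_zero _ hp.out.ne_zero⟩
  (Units.coeHom _).comp ((zetaPow_spec p n).autToPow ℚ)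

theorem zetaPow_pow_cycExp (σ : Γℚ) : zetaPow p n ^ (cycExp p n σ).val = σ (zetaPow p n) :=
  haveI : NeZero (p ^ n) := ⟨pow_ne_zero _ hp.out.ne_zero⟩
  (zetaPow_spec p n).autToPow_spec ℚ σ

theorem cycExp_eq_of_apply {σ : Γℚ} {m : ℕ} (h : σ (zetaPow p n) = zetaPow p n ^ m) :
    cycExp p n σ = m := by
  have : NeZero (p ^ n) := ⟨pow_ne_zero _ hp.out.ne_zero⟩
  rw [← zetaPow_pow_cycExp p n σ] at h
  have h' := (ZMod.natCast_eq_natCast_iff _ _ _).mpr (modEq_of_primitive_pow_eq (zetaPow_spec p n) h)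
  simpa using h'

/-- The exponent factors through a finite level. -/
theorem exists_level_cycExp : ∃ L : IntermediateField ℚ Qbar, FiniteDimensional ℚ L ∧
    ∀ σ : Γℚ, (∀ x ∈ L, σ x = x) → cycExp p n σ = 1 := by
  refine ⟨IntermediateField.adjoin ℚ {zetaPow p n}, ?_, fun σ hσ => ?_⟩
  · exact IntermediateField.adjoin.finiteDimensional
      ((zetaPow_spec p n).isIntegral (pow_pos hp.out.pos n)).tower_top
  · rw [cycExp_eq_of_apply p n (m := 1)]
    · simp
    · rw [pow_one]; exact hσ _ (IntermediateField.mem_adjoin_simple_self ℚ _)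

variable {p n}

theorem apply_zetaPow_eq_of_residue {q : ℕ} (hq : q.Prime) (hqp : q ≠ p)
    {A : ValuationSubring Qbar} (hA : A.LiesOverPrime q) {σ : Γℚ}
    (hσ : σ ∈ A.decompositionSubgroup ℚ) {m : ℕ}
    (h : ∀ x : IsLocalRing.ResidueField A,
      (⟨σ, hσ⟩ : A.decompositionSubgroup ℚ) • x = x ^ m) :
    σ (zetaPow p n) = zetaPow p n ^ m := by
  have : NeZero (p ^ n) := ⟨pow_ne_zero _ hp.out.ne_zero⟩
  have hζ := zetaPow_spec p n
  have hmem : zetaPow p n ∈ A := by
    rw [← A.valuation_le_one_iff, ← pow_le_one_iff (NeZero.ne (p ^ n)), ← map_pow, hζ.pow_eq_one,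
      map_one]
  set z : A := ⟨zetaPow p n, hmem⟩ with hz
  have hzprim : IsPrimitiveRoot z (p ^ n) :=
    IsPrimitiveRoot.of_map_of_injective (f := A.subtype) hζ A.subtype_injective
  have hqA : (q : A) ∈ IsLocalRing.maximalIdeal A := by
    obtain ⟨h1, h2⟩ := (ValuationSubring.mem_nonunits_iff_exists_mem_maximalIdeal (A := A)).mp hA
    convert h2 using 1
    exact Subtype.ext (by simp)
  have hqk : ((q : IsLocalRing.ResidueField A)) = 0 := by
    rw [← map_natCast (IsLocalRing.residue A), IsLocalRing.residue_eq_zero_iff]; exact hqA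
  have hpk : ((p : IsLocalRing.ResidueField A)) ≠ 0 := by
    intro hp0
    have hc : (q.Coprime p) := (Nat.coprime_primes hq hp.out).mpr hqp
    have := Nat.Coprime.gcd_eq_one hc
    have h1 : ((Nat.gcd q p : ℕ) : IsLocalRing.ResidueField A) = 0 := by
      have h2 := congrArg (Int.cast : ℤ → IsLocalRing.ResidueField A) (Nat.gcd_eq_gcd_ab q p)
      push_cast at h2
      rw [h2, hqk, hp0, zero_mul, zero_mul, add_zero]
    rw [this, Nat.cast_one] at h1
    exact one_ne_zero h1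
  have : NeZero ((p ^ n : ℕ) : IsLocalRing.ResidueField A) :=
    ⟨by push_cast; exact pow_ne_zero _ hpk⟩
  have hμ : IsPrimitiveRoot (IsLocalRing.residue A z) (p ^ n) := by
    rw [← Polynomial.isRoot_cyclotomic_iff, ← Polynomial.map_cyclotomic (p ^ n)
      (IsLocalRing.residue A)]
    exact (hzprim.isRoot_cyclotomic (NeZero.pos _)).map
  obtain ⟨j, -, hj⟩ := hζ.eq_pow_of_pow_eq_one (ξ := σ (zetaPow p n)) (by
    rw [← map_pow, hζ.pow_eq_one, map_one])
  have hres := h (IsLocalRing.residue A z)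
  rw [← IsLocalRing.ResidueField.residue_smul,
    show (⟨σ, hσ⟩ : A.decompositionSubgroup ℚ) • z = z ^ j from Subtype.ext hj.symm,
    map_pow] at hres
  rw [← hj, pow_eq_pow_of_modEq (modEq_of_primitive_pow_eq hμ hres) hζ.pow_eq_one]

/-- The exponent at a Frobenius element at `ℓ ≠ p` is `ℓ`. -/
theorem cycExp_frobenius {ℓ : ℕ} (hℓ : ℓ.Prime) (hℓp : ℓ ≠ p) {A : ValuationSubring Qbar}
    (hA : A.LiesOverPrime ℓ) {σ : Γℚ} (hσ : A.IsFrobeniusAt σ ℓ) :
    cycExp p n σ = ℓ :=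
  cycExp_eq_of_apply p n (apply_zetaPow_eq_of_residue hℓ hℓp hA hσ.mem_decompositionSubgroup
    hσ.smul_residue_eq)

/-- The exponent is trivial on inertia at `q ≠ p`. -/
theorem cycExp_inertia {q : ℕ} (hq : q.Prime) (hqp : q ≠ p) {A : ValuationSubring Qbar}
    (hA : A.LiesOverPrime q) {σ : Γℚ} (hσ : σ ∈ A.inertiaSubgroupIn ℚ) :
    cycExp p n σ = 1 := by
  obtain ⟨τ, hτ, rfl⟩ := hσ
  rw [cycExp_eq_of_apply p n (m := 1), Nat.cast_one]
  refine apply_zetaPow_eq_of_residue hq hqp hA τ.2 fun x => ?_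
  rw [pow_one]
  exact RingEquiv.congr_fun (MonoidHom.mem_ker.mp hτ) x

end Fermat.Agent.TraceFn
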