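/-
The sequence `x ^ a + y ^ a` as a polynomial in `x + y` and `x * y`, and traces of powers of a
rank two endomorphism.
-/
import Mathlib.LinearAlgebra.Trace
import Mathlib.LinearAlgebra.Charpoly.Basic
import Mathlib.LinearAlgebra.Charpoly.ToMatrix
import Mathlib.LinearAlgebra.Matrix.Charpoly.Coeff

set_option autoImplicit false

namespace Fermat.Agent.TraceFn

/-- `lucasV t d a` is the power sum `x ^ a + y ^ a` where `x + y = t` and `x * y = d`. -/
def lucasV {R : Type*} [Ring R] (t d : R) : ℕ → R
  | 0 => 2
  | 1 => t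
  | a + 2 => t * lucasV t d (a + 1) - d * lucasV t d a

theorem map_lucasV {R S : Type*} [Ring R] [Ring S] (f : R →+* S) (t d : R) :
    ∀ a, f (lucasV t d a) = lucasV (f t) (f d) a
  | 0 => map_ofNat f 2
  | 1 => rfl
  | a + 2 => by
    rw [lucasV, lucasV, map_sub, map_mul, map_mul, map_lucasV f t d a, map_lucasV f t d (a + 1)]

theorem pow_add_pow_eq_lucasV {R : Type*} [Ring R] {x y : R} (h : Commute x y) :
    ∀ a, x ^ a + y ^ a = lucasV (x + y) (x * y) a
  | 0 => by rw [pow_zero, pow_zero, lucasV, one_add_one_eq_two]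
  | 1 => by rw [pow_one, pow_one, lucasV]
  | a + 2 => by
    have h1 : y * x ^ (a + 1) = x * y * x ^ a := by rw [pow_succ', ← mul_assoc, h.eq]
    have h2 : x * y * y ^ a = x * y ^ (a + 1) := by rw [pow_succ', mul_assoc]
    rw [lucasV, ← pow_add_pow_eq_lucasV h a, ← pow_add_pow_eq_lucasV h (a + 1), add_mul, mul_add,
      mul_add, mul_add, h1, h2, ← pow_succ', ← pow_succ']
    abel

variable {A : Type*} [CommRing A] [Nontrivial A] {V : Type*} [AddCommGroup V] [Module A V]
  [Module.Free A V] [Module.Finite A V]

open Polynomial in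
/-- Traces of powers of an endomorphism of a rank two module with given characteristic
polynomial. -/
theorem trace_pow_eq_lucasV (hrank : Module.finrank A V = 2) {f : Module.End A V} {t d : A}
    (hf : LinearMap.charpoly f = X ^ 2 - C t * X + C d) :
    ∀ a, LinearMap.trace A V (f ^ a) = lucasV t d a
  | 0 => by
    rw [pow_zero, LinearMap.trace_one, hrank, lucasV]; norm_num
  | 1 => by
    classical
    rw [pow_one, lucasV]
    let b := Module.finBasisOfFinrankEq A V hrank
    rw [LinearMap.trace_eq_matrix_trace A b, Matrix.trace_eq_neg_charpoly_coeff,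
      LinearMap.charpoly_toMatrix, hf, Fintype.card_fin]
    norm_num [coeff_X_pow, coeff_C]
  | a + 2 => by
    have hCH := LinearMap.aeval_self_charpoly f
    rw [hf] at hCH
    simp only [map_sub, map_add, map_mul, map_pow, aeval_X, aeval_C] at hCH
    have h2 : f ^ (a + 2) = t • f ^ (a + 1) - d • f ^ a := by
      have hf2 : f ^ 2 = t • f - d • (1 : Module.End A V) := by
        rw [← Algebra.smul_def, ← Algebra.algebraMap_eq_smul_one] at *
        rw [← sub_eq_zero]
        calc _ = f ^ 2 - t • f + algebraMap A (Module.End A V) d := by abel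
          _ = 0 := hCH
      rw [add_comm, pow_add, hf2, sub_mul, smul_mul_assoc, smul_mul_assoc, one_mul, ← pow_succ']
    rw [h2, map_sub, map_smul, map_smul, trace_pow_eq_lucasV hrank hf a,
      trace_pow_eq_lucasV hrank hf (a + 1), lucasV, smul_eq_mul, smul_eq_mul]

end Fermat.Agent.TraceFn
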