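/-
Trace functions attached to a tower of torsion modules with Hecke and Galois action satisfying
the quadratic Frobenius relation, and their comparison with traces of adic representations.
-/
import Fermat.Agent.TraceFn.Lucas
import Fermat.Agent.TraceFn.Cyclo
import Fermat.Agent.TraceFn.Burnside
import Fermat.Agent.Density.Qbar
import Fermat.Prelude.Def_GaloisRep_LocalConditions
import Mathlib.RingTheory.Filtration

set_option autoImplicit false

namespace Fermat.Agent.TraceFn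

open Polynomial

local notation "Qbar" => AlgebraicClosure ℚ
local notation "Γℚ" => AlgebraicClosure ℚ ≃ₐ[ℚ] AlgebraicClosure ℚ

/-- Frobenius density, stated for the algebra structure used by the Galois representation
definitions. -/
theorem exists_frobenius_pow_level (L : IntermediateField ℚ Qbar) (hL : FiniteDimensional ℚ L)
    (g : Γℚ) (S : Finset ℕ) :
    ∃ ℓ : ℕ, ℓ.Prime ∧ ℓ ∉ S ∧ ∃ A : ValuationSubring Qbar, A.LiesOverPrime ℓ ∧
      ∃ σ : Γℚ, A.IsFrobeniusAt σ ℓ ∧ ∃ k : ℕ, ∀ x ∈ L, (σ ^ k) x = g x :=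
  @Density.exists_frobenius_pow_eq L hL g S

/-- A family of `p ^ n`-torsion modules with commuting actions of a commutative ring `R` and of
the absolute Galois group, where the Frobenius elements at primes `ℓ ∉ S` satisfy
`σ ^ 2 - a ℓ * σ + ℓ = 0`. -/
structure QuadraticTower (p : ℕ) (S : Finset ℕ) (R : Type) [CommRing R] (a : ℕ → R) :
    Type 1 where
  X : ℕ → Type
  [grp : ∀ n, AddCommGroup (X n)]
  torsion : ∀ n (x : X n), (p ^ n) • x = 0
  act : ∀ n, R →+* Module.End ℤ (X n)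
  gal : ∀ n, Γℚ →* Module.End ℤ (X n)
  commute : ∀ n r g, Commute (act n r) (gal n g)
  finiteLevel : ∀ n, GaloisFactorsThroughFiniteLevel (gal n)
  quadratic : ∀ n (ℓ : ℕ), ℓ.Prime → ℓ ∉ S → ∀ A : ValuationSubring Qbar, A.LiesOverPrime ℓ →
    ∀ σ : Γℚ, A.IsFrobeniusAt σ ℓ →
      gal n σ * gal n σ - act n (a ℓ) * gal n σ + (ℓ : Module.End ℤ (X n)) = 0

attribute [instance] QuadraticTower.grp

namespace QuadraticTower

variable {p : ℕ} [Fact p.Prime] {S : Finset ℕ} {R : Type} [CommRing R] {a : ℕ → R}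
  (D : QuadraticTower p S R a)

omit [Fact p.Prime] in
theorem natCast_eq_of_cast_eq (n : ℕ) {i j : ℕ} (h : (i : ZMod (p ^ n)) = (j : ZMod (p ^ n))) :
    (i : Module.End ℤ (D.X n)) = (j : Module.End ℤ (D.X n)) := by
  have h0 : ((p ^ n : ℕ) : Module.End ℤ (D.X n)) = 0 := LinearMap.ext fun x => by
    rw [Module.End.natCast_apply, LinearMap.zero_apply, D.torsion]
  have hmod : ∀ m : ℕ, (m : Module.End ℤ (D.X n)) = ((m % p ^ n : ℕ) : Module.End ℤ (D.X n)) :=
    fun m => by
      conv_lhs => rw [← Nat.mod_add_div m (p ^ n)]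
      rw [Nat.cast_add, Nat.cast_mul, h0, zero_mul, add_zero]
  rw [hmod i, hmod j, (ZMod.natCast_eq_natCast_iff' i j (p ^ n)).mp h]

/-- `g + χ(g) g⁻¹`, the operator standing in for the trace. -/
noncomputable def trFun (n : ℕ) (g : Γℚ) : Module.End ℤ (D.X n) :=
  D.gal n g + ((cycExp p n g).val : Module.End ℤ (D.X n)) * D.gal n g⁻¹

theorem trFun_frobenius_pow (hpS : p ∈ S) (n : ℕ) {ℓ : ℕ} (hℓ : ℓ.Prime) (hℓS : ℓ ∉ S)
    {A : ValuationSubring Qbar} (hA : A.LiesOverPrime ℓ) {σ : Γℚ} (hσ : A.IsFrobeniusAt σ ℓ)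
    (m : ℕ) :
    D.trFun n (σ ^ m) = D.act n (lucasV (a ℓ) (ℓ : R) m) := by
  have hℓp : ℓ ≠ p := fun h => hℓS (h ▸ hpS)
  set x := D.gal n σ with hx
  set y := (ℓ : Module.End ℤ (D.X n)) * D.gal n σ⁻¹ with hy
  have hinv : x * D.gal n σ⁻¹ = 1 := by rw [hx, ← map_mul, mul_inv_cancel, map_one]
  have hinv' : D.gal n σ⁻¹ * x = 1 := by rw [hx, ← map_mul, inv_mul_cancel, map_one]
  have hxy : x * y = (ℓ : Module.End ℤ (D.X n)) := by
    rw [hy, ← mul_assoc, ← (Nat.cast_commute ℓ x).eq, mul_assoc, hinv, mul_one]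
  have hyx : y * x = (ℓ : Module.End ℤ (D.X n)) := by rw [hy, mul_assoc, hinv', mul_one]
  have hsum : x + y = D.act n (a ℓ) := by
    have h0 := congrArg (· * D.gal n σ⁻¹) (D.quadratic n ℓ hℓ hℓS A hA σ hσ)
    simp only [add_mul, sub_mul, zero_mul, mul_assoc, ← hx, hinv, mul_one] at h0
    rw [← hy] at h0
    rw [← sub_eq_zero, ← h0]
    abel
  have hℓcast : D.act n (ℓ : R) = (ℓ : Module.End ℤ (D.X n)) := map_natCast _ _
  rw [map_lucasV, hℓcast, ← hxy, ← hsum,
    ← pow_add_pow_eq_lucasV (show Commute x y from hxy.trans hyx.symm), trFun, map_pow, ← hx,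
    ← inv_pow, map_pow (D.gal n), hy, (Nat.cast_commute ℓ (D.gal n σ⁻¹)).mul_pow, ← Nat.cast_pow,
    D.natCast_eq_of_cast_eq n (i := (cycExp p n (σ ^ m)).val) (j := ℓ ^ m)]
  have : NeZero (p ^ n) := ⟨pow_ne_zero _ (Fact.out : p.Prime).ne_zero⟩
  rw [map_pow, cycExp_frobenius hℓ hℓp hA hσ]
  simp

theorem trFun_eq_of_eq_on {n : ℕ} {L : IntermediateField ℚ Qbar}
    (hgal : ∀ σ : Γℚ, (∀ x ∈ L, σ x = x) → D.gal n σ = 1)
    (hcyc : ∀ σ : Γℚ, (∀ x ∈ L, σ x = x) → cycExp p n σ = 1)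
    {g h : Γℚ} (hgh : ∀ x ∈ L, (h⁻¹ * g) x = x) :
    D.trFun n g = D.trFun n h := by
  have h1 : g = h * (h⁻¹ * g) := by group
  have hinv : ∀ x ∈ L, (h⁻¹ * g)⁻¹ x = x := fun x hx => by
    conv_lhs => rw [← hgh x hx]
    exact AlgEquiv.symm_apply_apply _ x
  have hg : D.gal n g = D.gal n h := by rw [h1, map_mul, hgal _ hgh, mul_one]
  have hg' : D.gal n g⁻¹ = D.gal n h⁻¹ := by
    rw [h1, mul_inv_rev, map_mul, hgal _ hinv, one_mul]
  have hc : cycExp p n g = cycExp p n h := by rw [h1, map_mul, hcyc _ hgh, mul_one]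
  rw [trFun, trFun, hg, hg', hc]

section Compare

variable {T : Type} [CommRing T] [IsLocalRing T] (ρ : GaloisRepAdic T) (τ : R →+* T)

/-- The hypothesis comparing a representation with the tower at the Frobenius elements. -/
def FrobCompatible : Prop :=
  ∀ ℓ : ℕ, ℓ.Prime → ℓ ∉ S → ∀ A : ValuationSubring Qbar, A.LiesOverPrime ℓ →
    ∀ σ : Γℚ, A.IsFrobeniusAt σ ℓ →
      LinearMap.charpoly (ρ.ρ σ) = Polynomial.X ^ 2 - C (τ (a ℓ)) * Polynomial.X + C (ℓ : T)

/-- Elements of `R` killing a deep enough level of the tower map deep into the maximal ideal. -/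
def IsSeparating : Prop :=
  ∀ k : ℕ, ∃ n : ℕ, ∀ r : R, D.act n r = 0 → τ r ∈ IsLocalRing.maximalIdeal T ^ k

theorem trace_mem_of_forall_sub_mem (I : Ideal T) (f : Module.End T ρ.V)
    (hf : ∀ v, f v ∈ I • (⊤ : Submodule T ρ.V)) : LinearMap.trace T ρ.V f ∈ I := by
  classical
  let b := Module.finBasisOfFinrankEq T ρ.V ρ.finrank_eq
  rw [LinearMap.trace_eq_matrix_trace T b]
  refine Ideal.sum_mem _ fun i _ => ?_
  rw [Matrix.diag_apply, LinearMap.toMatrix_apply]
  refine Submodule.smul_induction_on (p := fun x => b.repr x i ∈ I) (hf (b i))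
    (fun r hr x _ => ?_) fun x y hx hy => ?_
  · rw [map_smul, Finsupp.smul_apply, smul_eq_mul]
    exact I.mul_mem_right _ hr
  · rw [map_add, Finsupp.add_apply]; exact I.add_mem hx hy

/-- Every trace of the representation is approximated by an element of `R` acting on the tower
as `trFun`. -/
theorem exists_trace_approx (hpS : p ∈ S) (hρ : FrobCompatible (S := S) (a := a) ρ τ) (k n : ℕ) (g : Γℚ) :
    ∃ r : R, D.act n r = D.trFun n g ∧
      LinearMap.trace T ρ.V (ρ.ρ g) - τ r ∈ IsLocalRing.maximalIdeal T ^ k := by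
  obtain ⟨L₁, hL₁, h₁⟩ := ρ.isAdicContinuous k
  obtain ⟨L₂, hL₂, h₂⟩ := D.finiteLevel n
  obtain ⟨L₃, hL₃, h₃⟩ := exists_level_cycExp p n
  have := hL₁; have := hL₂; have := hL₃
  have : FiniteDimensional ℚ ↥(L₁ ⊔ L₂) := IntermediateField.finiteDimensional_sup L₁ L₂
  have : FiniteDimensional ℚ ↥(L₁ ⊔ L₂ ⊔ L₃) := IntermediateField.finiteDimensional_sup (L₁ ⊔ L₂) L₃
  obtain ⟨ℓ, hℓ, hℓS, A, hA, σ, hσ, m, hm⟩ :=
    exists_frobenius_pow_level (L₁ ⊔ L₂ ⊔ L₃) this g S
  have hfix : ∀ x ∈ L₁ ⊔ L₂ ⊔ L₃, ((σ ^ m)⁻¹ * g) x = x := fun x hx => by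
    rw [AlgEquiv.mul_apply, ← hm x hx]
    exact AlgEquiv.symm_apply_apply _ x
  refine ⟨lucasV (a ℓ) (ℓ : R) m, ?_, ?_⟩
  · rw [← D.trFun_frobenius_pow hpS n hℓ hℓS hA hσ m]
    refine (D.trFun_eq_of_eq_on (L := L₁ ⊔ L₂ ⊔ L₃)
      (fun s hs => h₂ s fun x hx => hs x ((le_sup_right.trans le_sup_left : L₂ ≤ _) hx))
      (fun s hs => h₃ s fun x hx => hs x ((le_sup_right : L₃ ≤ _) hx)) hfix).symm
  · rw [map_lucasV, map_natCast, ← trace_pow_eq_lucasV ρ.finrank_eq (hρ ℓ hℓ hℓS A hA σ hσ) m,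
      ← map_pow, ← map_sub]
    refine trace_mem_of_forall_sub_mem ρ _ _ fun v => ?_
    have hg : ρ.ρ g = ρ.ρ (σ ^ m) * ρ.ρ ((σ ^ m)⁻¹ * g) := by rw [← map_mul, mul_inv_cancel_left]
    rw [LinearMap.sub_apply, hg, Module.End.mul_apply, ← map_sub]
    refine Submodule.smul_mono le_rfl le_top (?_ : _ ∈ IsLocalRing.maximalIdeal T ^ k •
      Submodule.map (ρ.ρ (σ ^ m)) ⊤)
    rw [← Submodule.map_smul'']
    exact Submodule.mem_map_of_mem (h₁ _ (fun x hx =>
      hfix x ((le_sup_left.trans le_sup_left : L₁ ≤ _) hx)) v)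

/-- An integral linear relation among the operators `trFun` on every level is inherited by the
traces of the representation. -/
theorem sum_trace_eq_zero [IsNoetherianRing T] (hpS : p ∈ S) (hρ : FrobCompatible (S := S) (a := a) ρ τ)
    (hsep : D.IsSeparating τ) {ι : Type*} (s : Finset ι) (c : ι → ℤ) (g : ι → Γℚ)
    (h : ∀ n, ∑ i ∈ s, c i • D.trFun n (g i) = 0) :
    ∑ i ∈ s, c i • LinearMap.trace T ρ.V (ρ.ρ (g i)) = 0 := by
  suffices hk : ∀ k, ∑ i ∈ s, c i • LinearMap.trace T ρ.V (ρ.ρ (g i)) ∈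
      IsLocalRing.maximalIdeal T ^ k by
    rw [← Ideal.mem_bot, ← Ideal.iInf_pow_eq_bot_of_isLocalRing (IsLocalRing.maximalIdeal T)
      (IsLocalRing.maximalIdeal.isMaximal T).ne_top, Ideal.mem_iInf]
    exact hk
  intro k
  obtain ⟨n, hn⟩ := hsep k
  choose r hr using fun i => D.exists_trace_approx ρ τ hpS hρ k n (g i)
  have h1 : τ (∑ i ∈ s, c i • r i) ∈ IsLocalRing.maximalIdeal T ^ k := by
    refine hn _ ?_
    rw [map_sum, ← h n]
    exact Finset.sum_congr rfl fun i _ => by rw [map_zsmul, (hr i).1]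
  have h2 : ∑ i ∈ s, c i • (LinearMap.trace T ρ.V (ρ.ρ (g i)) - τ (r i)) ∈
      IsLocalRing.maximalIdeal T ^ k :=
    sum_mem fun i _ => zsmul_mem (hr i).2 _
  have h3 : ∑ i ∈ s, c i • LinearMap.trace T ρ.V (ρ.ρ (g i)) =
      τ (∑ i ∈ s, c i • r i) + ∑ i ∈ s, c i • (LinearMap.trace T ρ.V (ρ.ρ (g i)) - τ (r i)) := by
    simp only [smul_sub, Finset.sum_sub_distrib, map_sum, map_zsmul]
    abel
  rw [h3]
  exact Ideal.add_mem _ h1 h2

/-- An element acting trivially on every level is killed by the representation. -/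
theorem eq_one_of_gal_eq_one [IsNoetherianRing T] (hpS : p ∈ S) (hρ : FrobCompatible (S := S) (a := a) ρ τ)
    (hsep : D.IsSeparating τ) (hirr : ρ.residual.IsAbsolutelyIrreducible) {i : Γℚ}
    (hi : ∀ n, D.gal n i = 1) (hic : ∀ n, cycExp p n i = 1) : ρ.ρ i = 1 := by
  rw [← sub_eq_zero]
  refine eq_zero_of_forall_trace_mul_eq_zero ρ hirr _ fun g => ?_
  have hi' : ∀ n, D.gal n i⁻¹ = 1 := fun n => by
    rw [← mul_one (D.gal n i⁻¹), ← hi n, ← map_mul, inv_mul_cancel, map_one, hi n]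
  have h := D.sum_trace_eq_zero ρ τ hpS hρ hsep (Finset.univ : Finset (Fin 2)) ![1, -1]
    ![g * i, g] fun n => by
      rw [Fin.sum_univ_two]
      simp only [Matrix.cons_val_zero, Matrix.cons_val_one, one_zsmul, neg_zsmul, trFun, map_mul,
        mul_inv_rev, hi n, hi' n, hic n, mul_one, one_mul]
      abel
  rw [Fin.sum_univ_two] at h
  simp only [Matrix.cons_val_zero, Matrix.cons_val_one, one_zsmul, neg_zsmul] at h
  rw [mul_sub, mul_one, map_sub, ← map_mul, sub_eq_add_neg]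
  exact h

/-- An element acting unipotently (with square zero) on every level acts so on the
representation. -/
theorem sub_one_sq_eq_zero [IsNoetherianRing T] (hpS : p ∈ S) (hρ : FrobCompatible (S := S) (a := a) ρ τ)
    (hsep : D.IsSeparating τ) (hirr : ρ.residual.IsAbsolutelyIrreducible) {i : Γℚ}
    (hi : ∀ n, (D.gal n i - 1) ^ 2 = 0) (hic : ∀ n, cycExp p n i = 1) :
    (ρ.ρ i - 1) ^ 2 = 0 := by
  refine eq_zero_of_forall_trace_mul_eq_zero ρ hirr _ fun g => ?_
  have h := D.sum_trace_eq_zero ρ τ hpS hρ hsep (Finset.univ : Finset (Fin 3)) ![1, -2, 1]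
    ![g * i * i, g * i, g] fun n => by
      set u := D.gal n i with hu
      set w := D.gal n i⁻¹ with hw
      have huw : u * w = 1 := by rw [hu, hw, ← map_mul, mul_inv_cancel, map_one]
      have hwu : w * u = 1 := by rw [hu, hw, ← map_mul, inv_mul_cancel, map_one]
      have h2 : u * u - u - u + 1 = 0 := by
        rw [← hi n, ← hu, sq, sub_mul, mul_sub, mul_one, one_mul]; abel
      have h3 : w * w - w - w + 1 = 0 := by
        have := congrArg (fun z => w * w * z) h2
        simp only [mul_add, mul_sub, mul_one, mul_zero] at this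
        have e1 : w * w * (u * u) = 1 := by
          rw [mul_assoc w w, ← mul_assoc w u u, hwu, one_mul, hwu]
        have e2 : w * w * u = w := by rw [mul_assoc, hwu, mul_one]
        rw [e1, e2] at this
        rw [← this]; abel
      rw [Fin.sum_univ_three]
      simp only [Matrix.cons_val_zero, Matrix.cons_val_one, Matrix.cons_val, one_zsmul, trFun,
        map_mul, mul_inv_rev, hic n, mul_one, ← hu, ← hw]
      rw [show (-2 : ℤ) = -1 + -1 by norm_num, add_zsmul, neg_one_zsmul]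
      set c : Module.End ℤ (D.X n) :=
        ((cycExp p n g).val : Module.End ℤ (D.X n)) with hc
      calc _ = D.gal n g * (u * u - u - u + 1) + c * ((w * w - w - w + 1) * D.gal n g⁻¹) := by
            noncomm_ring
        _ = 0 := by rw [h2, h3]; simp
  rw [Fin.sum_univ_three] at h
  simp only [Matrix.cons_val_zero, Matrix.cons_val_one, Matrix.cons_val, one_zsmul, map_mul] at h
  rw [show (-2 : ℤ) = -1 + -1 by norm_num, add_zsmul, neg_one_zsmul] at h
  have hexp : ρ.ρ g * (ρ.ρ i - 1) ^ 2 =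
      ρ.ρ g * ρ.ρ i * ρ.ρ i - ρ.ρ g * ρ.ρ i - ρ.ρ g * ρ.ρ i + ρ.ρ g := by noncomm_ring
  rw [hexp, map_add, map_sub, map_sub, ← h]
  abel

/-- An element acting unipotently on every level has characteristic polynomial `(X - 1) ^ 2`. -/
theorem charpoly_eq_sub_one_sq [IsNoetherianRing T] (hpS : p ∈ S)
    (hρ : FrobCompatible (S := S) (a := a) ρ τ) (hsep : D.IsSeparating τ)
    (hirr : ρ.residual.IsAbsolutelyIrreducible) {i : Γℚ}
    (hi : ∀ n, (D.gal n i - 1) ^ 2 = 0) (hic : ∀ n, cycExp p n i = 1) :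
    LinearMap.charpoly (ρ.ρ i) = (Polynomial.X - 1) ^ 2 := by
  classical
  have hsq := D.sub_one_sq_eq_zero ρ τ hpS hρ hsep hirr hi hic
  have h := D.sum_trace_eq_zero ρ τ hpS hρ hsep (Finset.univ : Finset (Fin 2)) ![1, -1]
    ![i, 1] fun n => by
      set u := D.gal n i with hu
      set w := D.gal n i⁻¹ with hw
      have huw : u * w = 1 := by rw [hu, hw, ← map_mul, mul_inv_cancel, map_one]
      have h2 : u * u - u - u + 1 = 0 := by
        rw [← hi n, ← hu, sq, sub_mul, mul_sub, mul_one, one_mul]; abel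
      have h3 : u + w - 1 - 1 = 0 := by
        have := congrArg (fun z => z * w) h2
        simp only [add_mul, sub_mul, one_mul, zero_mul, mul_assoc, huw, mul_one] at this
        rw [← this]; abel
      have hval : ∀ g : Γℚ, cycExp p n g = 1 →
          ((cycExp p n g).val : Module.End ℤ (D.X n)) = 1 := fun g hg => by
        have : NeZero (p ^ n) := ⟨pow_ne_zero _ (Fact.out : p.Prime).ne_zero⟩
        rw [D.natCast_eq_of_cast_eq n (i := (cycExp p n g).val) (j := 1)
          (by rw [ZMod.natCast_val, ZMod.cast_id, hg, Nat.cast_one]), Nat.cast_one]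
      have e1 : D.trFun n i = u + w := by rw [trFun, hval i (hic n), one_mul]
      have e2 : D.trFun n 1 = 1 + 1 := by
        rw [trFun, inv_one, hval 1 (map_one _), one_mul, map_one]
      rw [Fin.sum_univ_two]
      show (1 : ℤ) • D.trFun n i + (-1 : ℤ) • D.trFun n 1 = 0
      rw [e1, e2, one_zsmul, neg_one_zsmul, ← h3]
      abel
  rw [Fin.sum_univ_two] at h
  simp only [Matrix.cons_val_zero, Matrix.cons_val_one, one_zsmul, neg_zsmul, map_one,
    LinearMap.trace_one, ρ.finrank_eq] at h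
  let b := Module.finBasisOfFinrankEq T ρ.V ρ.finrank_eq
  set M := LinearMap.toMatrix b b (ρ.ρ i) with hM
  have htr : M.trace = 2 := by
    rw [hM, ← LinearMap.trace_eq_matrix_trace, ← sub_eq_zero, sub_eq_add_neg]
    exact_mod_cast h
  have hM2 : (M - 1) * (M - 1) = 0 := by
    have h2 := congrArg (LinearMap.toMatrix b b) hsq
    rwa [sq, LinearMap.toMatrix_mul, map_sub, LinearMap.toMatrix_one, map_zero] at h2
  rw [Matrix.trace_fin_two] at htr
  have h00 := congrFun (congrFun hM2 0) 0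
  simp only [Matrix.mul_apply, Fin.sum_univ_two, Matrix.sub_apply, Matrix.one_apply_eq,
    Matrix.zero_apply, Matrix.one_apply_ne (show (0 : Fin 2) ≠ 1 by decide),
    Matrix.one_apply_ne (show (1 : Fin 2) ≠ 0 by decide), sub_zero] at h00
  rw [← LinearMap.charpoly_toMatrix _ b, ← hM, Matrix.charpoly_fin_two, Matrix.trace_fin_two, htr,
    Matrix.det_fin_two,
    show M 0 0 * M 1 1 - M 0 1 * M 1 0 = 1 by linear_combination -h00 + M 0 0 * htr]
  simp only [map_ofNat, map_one]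
  ring

end Compare

end QuadraticTower

end Fermat.Agent.TraceFn
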