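/-
The quadratic tower of `p`-power torsion of `JZero N`, and the resulting unramifiedness of Hecke
Galois representation data.
-/
import Fermat.Agent.TraceFn.Tower
import Fermat.Prelude.Def_ModularCurve_HeckeModule
import Fermat.Prelude.Def_CuspForm_HeckeGaloisRepDatum
import Fermat.Agent.HK.HeckeGalois

set_option autoImplicit false

noncomputable section

namespace Fermat.Agent.TraceFn

open ModularCurve

local notation "Qbar" => AlgebraicClosure ℚ
local notation "Γℚ" => AlgebraicClosure ℚ ≃ₐ[ℚ] AlgebraicClosure ℚ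

section Torsion

variable (M : Type) [AddCommGroup M] [DistribMulAction Γℚ M]

/-- The `p ^ n`-torsion of an abelian group. -/
def torsLevel (p n : ℕ) : AddSubgroup M := AddMonoidHom.ker (nsmulAddMonoidHom (p ^ n) : M →+ M)

omit [DistribMulAction Γℚ M] in
theorem mem_torsLevel {p n : ℕ} {x : M} : x ∈ torsLevel M p n ↔ (p ^ n) • x = 0 := Iff.rfl

/-- Restriction of an additive endomorphism to a torsion level. -/
def restrictTors (p n : ℕ) : AddMonoid.End M →+* Module.End ℤ (torsLevel M p n) where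
  toFun f := ((AddMonoidHom.comp f (torsLevel M p n).subtype).codRestrict (torsLevel M p n)
    fun x => by
      show (p ^ n) • f (x : M) = 0
      rw [← map_nsmul, (mem_torsLevel M).mp x.2, map_zero]).toIntLinearMap
  map_one' := LinearMap.ext fun _ => rfl
  map_mul' _ _ := LinearMap.ext fun _ => rfl
  map_zero' := LinearMap.ext fun _ => rfl
  map_add' _ _ := LinearMap.ext fun _ => rfl

omit [DistribMulAction Γℚ M] in
theorem restrictTors_apply (p n : ℕ) (f : AddMonoid.End M) (x : torsLevel M p n) :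
    (restrictTors M p n f x : M) = f (x : M) := rfl

/-- The Galois action on a torsion level. -/
def galTors (p n : ℕ) : Γℚ →* Module.End ℤ (torsLevel M p n) :=
  (restrictTors M p n).toMonoidHom.comp (DistribMulAction.toAddMonoidEnd Γℚ M)

theorem galTors_apply (p n : ℕ) (σ : Γℚ) (x : torsLevel M p n) :
    (galTors M p n σ x : M) = σ • (x : M) := rfl

/-- The Galois action on each torsion level factors through a finite level. -/
def TorsionFiniteLevel (p : ℕ) : Prop := ∀ n, GaloisFactorsThroughFiniteLevel (galTors M p n)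

variable {R : Type} [CommRing R]

/-- The quadratic tower of torsion levels of a group with commuting actions. -/
def torsionTower (p : ℕ) (S : Finset ℕ) (a : ℕ → R) (f : R →+* AddMonoid.End M)
    (hcomm : ∀ (r : R) (σ : Γℚ) (x : M), f r (σ • x) = σ • f r x)
    (hfin : TorsionFiniteLevel M p)
    (hquad : ∀ ℓ : ℕ, ℓ.Prime → ℓ ∉ S → ∀ A : ValuationSubring Qbar, A.LiesOverPrime ℓ →
      ∀ σ : Γℚ, A.IsFrobeniusAt σ ℓ → ∀ x : M, (∃ n : ℕ, p ^ n • x = 0) →
        σ • σ • x - f (a ℓ) (σ • x) + ℓ • x = 0) :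
    QuadraticTower p S R a where
  X n := torsLevel M p n
  torsion n x := Subtype.ext ((mem_torsLevel M).mp x.2)
  act n := (restrictTors M p n).comp f
  gal n := galTors M p n
  commute n r g := LinearMap.ext fun x => Subtype.ext (hcomm r g (x : M))
  finiteLevel := hfin
  quadratic n ℓ hℓ hℓS A hA σ hσ := LinearMap.ext fun x => Subtype.ext
    (hquad ℓ hℓ hℓS A hA σ hσ (x : M) ⟨n, (mem_torsLevel M).mp x.2⟩)

variable {M} {p : ℕ} {S : Finset ℕ} {a : ℕ → R} {f : R →+* AddMonoid.End M}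
  {hcomm : ∀ (r : R) (σ : Γℚ) (x : M), f r (σ • x) = σ • f r x}
  {hfin : TorsionFiniteLevel M p}
  {hquad : ∀ ℓ : ℕ, ℓ.Prime → ℓ ∉ S → ∀ A : ValuationSubring Qbar, A.LiesOverPrime ℓ →
    ∀ σ : Γℚ, A.IsFrobeniusAt σ ℓ → ∀ x : M, (∃ n : ℕ, p ^ n • x = 0) →
      σ • σ • x - f (a ℓ) (σ • x) + ℓ • x = 0}

theorem torsionTower_act_eq_zero {n : ℕ} {r : R}
    (h : (torsionTower M p S a f hcomm hfin hquad).act n r = 0) (x : M) (hx : (p ^ n) • x = 0) :
    f r x = 0 :=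
  congrArg Subtype.val (LinearMap.congr_fun h ⟨x, (mem_torsLevel M).mpr hx⟩)

theorem torsionTower_gal_eq_one (n : ℕ) (σ : Γℚ)
    (h : ∀ x : M, (p ^ n) • x = 0 → σ • x = x) :
    (torsionTower M p S a f hcomm hfin hquad).gal n σ = 1 :=
  LinearMap.ext fun x => Subtype.ext (h x.1 ((mem_torsLevel M).mp x.2))

theorem torsionTower_gal_sub_one_sq (n : ℕ) (σ : Γℚ)
    (h : ∀ x : M, (p ^ n) • x = 0 → σ • (σ • x - x) = σ • x - x) :
    ((torsionTower M p S a f hcomm hfin hquad).gal n σ - 1) ^ 2 = 0 :=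
  LinearMap.ext fun x => Subtype.ext (sub_eq_zero.mpr (h x.1 ((mem_torsLevel M).mp x.2)))

end Torsion

/-- Polynomials in the Hecke generators away from `S`. -/
abbrev AwayHecke (S : Finset ℕ) : Type := MvPolynomial {ℓ : Nat.Primes // (ℓ : ℕ) ∉ S} ℤ

/-- The generator at `ℓ`. -/
def awayGen (S : Finset ℕ) (ℓ : ℕ) : AwayHecke S :=
  if h : ℓ.Prime ∧ ℓ ∉ S then MvPolynomial.X ⟨⟨ℓ, h.1⟩, h.2⟩ else 0

/-- The inclusion into the formal Hecke algebra. -/
def awayIncl (S : Finset ℕ) : AwayHecke S →+* HeckeAlg :=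
  (MvPolynomial.rename Subtype.val).toRingHom

theorem awayIncl_awayGen {S : Finset ℕ} {ℓ : ℕ} (hℓ : ℓ.Prime) (hℓS : ℓ ∉ S) :
    awayIncl S (awayGen S ℓ) = heckeGen ⟨ℓ, hℓ⟩ := by
  rw [awayGen, dif_pos ⟨hℓ, hℓS⟩]
  exact MvPolynomial.rename_X _ _

variable (N : ℕ) [NeZero N] (S : Finset ℕ)

open scoped IsMulCommutative in
/-- Evaluation in the Hecke algebra away from `S`. -/
def awayEval (hNS : ∀ q : ℕ, q.Prime → q ∣ N → q ∈ S) :
    AwayHecke S →+* CuspForm.heckeAlgebra N 2 (↑S : Set ℕ) :=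
  MvPolynomial.eval₂Hom (Int.castRingHom _) fun i : {ℓ : Nat.Primes // (ℓ : ℕ) ∉ S} =>
    CuspForm.heckeAlgebra.T (S := (↑S : Set ℕ)) i.1.2 (fun h => i.2 (hNS _ i.1.2 h))
      (fun h => i.2 (Finset.mem_coe.mp h))

theorem awayEval_awayGen (hNS : ∀ q : ℕ, q.Prime → q ∣ N → q ∈ S) {ℓ : ℕ} (hℓ : ℓ.Prime) (hℓN : ¬ ℓ ∣ N) (hℓS : ℓ ∉ (↑S : Set ℕ)) :
    awayEval N S hNS (awayGen S ℓ) = CuspForm.heckeAlgebra.T hℓ hℓN hℓS := by
  rw [awayGen, dif_pos ⟨hℓ, fun h => hℓS (Finset.mem_coe.mpr h)⟩]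
  exact MvPolynomial.eval₂Hom_X' _ _ _

/-- The formal Hecke algebra acting on `JZero N`. -/
def jHecke : HeckeAlg →+* AddMonoid.End (JZero N) :=
  @Module.toAddMonoidEnd HeckeAlg (JZero N) _ _ (heckeModuleBar N)

theorem jHecke_apply (t : HeckeAlg) (x : JZero N) :
    jHecke N t x = (letI := heckeModuleBar N; t • x) := rfl

theorem jHecke_galois (t : HeckeAlg) (σ : Γℚ) (x : JZero N) :
    jHecke N t (σ • x) = σ • jHecke N t x :=
  letI := heckeModuleBar N
  ((Fermat.Agent.HK.Corr.smulCommClass_heckeModuleBar N).smul_comm σ t x).symm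

/-- The Galois action on each torsion level factors through a finite level. -/
def JTorsFiniteLevel (p : ℕ) : Prop := TorsionFiniteLevel (JZero N) p

/-- `Frobenius² - T_ℓ Frobenius + ℓ = 0` on `p`-power torsion, for `ℓ` prime to `N p`. -/
def JFrobeniusQuadratic (p : ℕ) : Prop :=
  ∀ ℓ : ℕ, (hℓ : ℓ.Prime) → ¬ ℓ ∣ N * p →
    ∀ A : ValuationSubring Qbar, A.LiesOverPrime ℓ →
      ∀ σ : Γℚ, A.IsFrobeniusAt σ ℓ →
        ∀ x : JZero N, (∃ n : ℕ, p ^ n • x = 0) →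
          σ • σ • x - jHecke N (heckeGen ⟨ℓ, hℓ⟩) (σ • x) + ℓ • x = 0

theorem jFrobeniusQuadratic_of_frobeniusQuadratic (p : ℕ)
    (h : letI := heckeModuleBar N
      haveI := Fermat.Agent.HK.Corr.smulCommClass_heckeModuleBar N
      FrobeniusQuadratic (K := ℚ) (L := Qbar) N p (JZero N)) :
    JFrobeniusQuadratic N p := h

/-- The quadratic tower of the Jacobian. -/
def jzeroTower (p : ℕ) (hpS : p ∈ S) (hp : p.Prime)
    (hNS : ∀ q : ℕ, q.Prime → q ∣ N → q ∈ S)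
    (hfin : JTorsFiniteLevel N p) (hfrob : JFrobeniusQuadratic N p) :
    QuadraticTower p S (AwayHecke S) (awayGen S) :=
  torsionTower (JZero N) p S (awayGen S) ((jHecke N).comp (awayIncl S))
    (fun r σ x => jHecke_galois N (awayIncl S r) σ x) hfin
    (fun ℓ hℓ hℓS A hA σ hσ x hx => by
      have hℓNp : ¬ ℓ ∣ N * p := fun h => hℓS (by
        rcases hℓ.dvd_mul.mp h with h | h
        · exact hNS ℓ hℓ h
        · rw [(Nat.prime_dvd_prime_iff_eq hℓ hp).mp h]; exact hpS)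
      rw [RingHom.comp_apply, awayIncl_awayGen hℓ hℓS]
      exact hfrob ℓ hℓ hℓNp A hA σ hσ x hx)

variable {N S}

/-- Polynomials away from `S` killing a deep torsion level are divisible by a high power of `p`
in the Hecke algebra. -/
def JHeckeFaithful (hNS : ∀ q : ℕ, q.Prime → q ∣ N → q ∈ S) (p : ℕ) : Prop :=
  ∀ k : ℕ, ∃ n : ℕ, ∀ P : AwayHecke S,
    (∀ x : JZero N, (p ^ n) • x = 0 → jHecke N (awayIncl S P) x = 0) →
      ∃ t : CuspForm.heckeAlgebra N 2 (↑S : Set ℕ), awayEval N S hNS P = (p ^ k) • t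

section Datum

variable {p : ℕ} {hNS : ∀ q : ℕ, q.Prime → q ∣ N → q ∈ S}
  {𝒪 : Type} [CommRing 𝒪] [IsDomain 𝒪] [IsDiscreteValuationRing 𝒪]
  [IsAdicComplete (IsLocalRing.maximalIdeal 𝒪) 𝒪]
  {θ : CuspForm.heckeAlgebra N 2 (↑S : Set ℕ) →+* IsLocalRing.ResidueField 𝒪}
  {T : Type} [CommRing T] [IsLocalRing T] [IsNoetherianRing T]
  [IsAdicComplete (IsLocalRing.maximalIdeal T) T] [Algebra 𝒪 T] [IsLocalHom (algebraMap 𝒪 T)]
  [Module.Finite 𝒪 T] [Module.Free 𝒪 T]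

/-- The evaluation `AwayHecke S → T` of a datum. -/
def datumEval (hNS : ∀ q : ℕ, q.Prime → q ∣ N → q ∈ S)
    (H : CuspForm.HeckeGaloisRepDatum N (↑S : Set ℕ) 𝒪 θ T) : AwayHecke S →+* T :=
  H.π.comp (awayEval N S hNS)

theorem frobCompatible_datum (H : CuspForm.HeckeGaloisRepDatum N (↑S : Set ℕ) 𝒪 θ T) :
    QuadraticTower.FrobCompatible (S := S) (a := awayGen S) H.ρ (datumEval hNS H) := by
  intro ℓ hℓ hℓS A hA σ hσ
  have hℓN : ¬ ℓ ∣ N := fun h => hℓS (hNS ℓ hℓ h)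
  have hℓS' : ℓ ∉ (↑S : Set ℕ) := by exact_mod_cast hℓS
  rw [datumEval, RingHom.comp_apply, awayEval_awayGen N S hNS hℓ hℓN hℓS']
  exact H.charpoly_frob ℓ hℓ hℓN hℓS' A hA σ hσ

theorem isSeparating_jzeroTower [Fact p.Prime] (hp𝒪 : (p : 𝒪) ∈ IsLocalRing.maximalIdeal 𝒪)
    (hpS : p ∈ S) (hfin : JTorsFiniteLevel N p) (hfrob : JFrobeniusQuadratic N p)
    (hfaith : JHeckeFaithful hNS p)
    (H : CuspForm.HeckeGaloisRepDatum N (↑S : Set ℕ) 𝒪 θ T) :
    (jzeroTower N S p hpS Fact.out hNS hfin hfrob).IsSeparating (datumEval hNS H) := by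
  intro k
  obtain ⟨n, hn⟩ := hfaith k
  refine ⟨n, fun r hr => ?_⟩
  obtain ⟨t, ht⟩ := hn r fun x hx =>
    torsionTower_act_eq_zero (M := JZero N) hr x hx
  rw [datumEval, RingHom.comp_apply, ht, map_nsmul, nsmul_eq_mul, Nat.cast_pow]
  refine Ideal.mul_mem_right _ _ (Ideal.pow_mem_pow ?_ k)
  rw [← map_natCast (algebraMap 𝒪 T)]
  exact map_nonunit (algebraMap 𝒪 T) (p : 𝒪) hp𝒪

/-- Unramifiedness of a datum at `q ∉ S`, from the torsion of the Jacobian. -/
theorem isUnramifiedAt_of_jzero (hp : p.Prime) (hp𝒪 : (p : 𝒪) ∈ IsLocalRing.maximalIdeal 𝒪)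
    (hpS : p ∈ S) (hfin : JTorsFiniteLevel N p) (hfrob : JFrobeniusQuadratic N p)
    (hunr : UnramifiedOutside (K := ℚ) (L := Qbar) N p (JZero N))
    (hfaith : JHeckeFaithful hNS p)
    (H : CuspForm.HeckeGaloisRepDatum N (↑S : Set ℕ) 𝒪 θ T)
    (q : ℕ) (hq : q.Prime) (hqS : q ∉ S) :
    H.ρ.IsUnramifiedAt q := by
  have : Fact p.Prime := ⟨hp⟩
  intro A hA σ hσ
  have hqp : q ≠ p := fun h => hqS (h ▸ hpS)
  have hqNp : ¬ q ∣ N * p := fun h => by
    rcases hq.dvd_mul.mp h with h | h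
    · exact hqS (hNS q hq h)
    · exact hqp ((Nat.prime_dvd_prime_iff_eq hq hp).mp h)
  refine (jzeroTower N S p hpS hp hNS hfin hfrob).eq_one_of_gal_eq_one H.ρ (datumEval hNS H) hpS
    (frobCompatible_datum H) (isSeparating_jzeroTower hp𝒪 hpS hfin hfrob hfaith H)
    H.residual_absIrr (fun n => torsionTower_gal_eq_one (M := JZero N) n σ fun x hx => ?_)
    fun n => cycExp_inertia hq hqp hA hσ
  exact hunr q hq hqNp A hA σ hσ x ⟨n, hx⟩

end Datum

end Fermat.Agent.TraceFn
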