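/-
The Eichler–Shimura clauses on `p`-power torsion from the existence of specialisation data.
-/
import Fermat.Agent.TraceFn.JZero
import Fermat.Agent.GAL.Interface

set_option autoImplicit false

namespace Fermat.Agent.TraceFn

open ModularCurve

section

set_option linter.unusedSectionVars false

variable {K L : Type*} [Field K] [Field L] [Algebra K L] {N p : ℕ} {J : Type*} [AddCommGroup J]
  [Module HeckeAlg J] [DistribMulAction (L ≃ₐ[K] L) J] [SMulCommClass (L ≃ₐ[K] L) HeckeAlg J]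

theorem isTorsion_smul {x : J} (g : L ≃ₐ[K] L) {n : ℕ} (hx : p ^ n • x = 0) :
    p ^ n • (g • x) = 0 := by
  have := map_nsmul (DistribSMul.toAddMonoidHom J g) (p ^ n) x
  rw [hx, map_zero] at this
  exact this.symm

/-- Unramifiedness of the torsion from specialisation data. -/
theorem unramifiedOutside_of_specializationExists
    (h : SpecializationExists (K := K) (L := L) N p J) :
    UnramifiedOutside (K := K) (L := L) N p J := by
  rintro ℓ hℓ hℓNp A hA σ hσ x ⟨n, hx⟩
  obtain ⟨J', _, _, sp, F, hsp, -⟩ := h ℓ hℓ hℓNp A hA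
  rw [← sub_eq_zero]
  refine hsp.injective_torsion _ ⟨n, ?_⟩ ?_
  · rw [nsmul_sub, isTorsion_smul σ hx, hx, sub_self]
  · rw [map_sub, hsp.inertia_comm σ hσ, sub_self]

/-- The quadratic Frobenius relation on the torsion from specialisation data. -/
theorem frobeniusQuadratic_of_specializationExists
    (h : SpecializationExists (K := K) (L := L) N p J) :
    FrobeniusQuadratic (K := K) (L := L) N p J := by
  rintro ℓ hℓ hℓNp A hA σ hσ x ⟨n, hx⟩
  obtain ⟨J', _, _, sp, F, hsp, hrel⟩ := h ℓ hℓ hℓNp A hA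
  refine hsp.injective_torsion _ ⟨n, ?_⟩ ?_
  · rw [nsmul_add, nsmul_sub, isTorsion_smul σ (isTorsion_smul σ hx),
      smul_comm (p ^ n) (heckeGen ⟨ℓ, hℓ⟩), isTorsion_smul σ hx, smul_zero, sub_zero,
      smul_comm (p ^ n) ℓ, hx, smul_zero, add_zero]
  · rw [map_add, map_sub, hsp.hecke_comm, hsp.frobenius_comm σ hσ, hsp.frobenius_comm σ hσ,
      map_nsmul]
    exact hrel (sp x)

end

section

variable (N : ℕ) [NeZero N]

theorem jTorsFiniteLevel_of_torsionFiniteLevel {p : ℕ} (h : GAL.TorsionFiniteLevel N p) :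
    JTorsFiniteLevel N p := fun n => by
  obtain ⟨L, hL, hfix⟩ := h n
  exact ⟨L, hL, fun σ hσ => LinearMap.ext fun x => Subtype.ext
    (hfix σ hσ x.1 ((mem_torsLevel (JZero N)).mp x.2))⟩

variable {N}

/-- Unramifiedness of a datum from specialisation data on the Jacobian. -/
theorem isUnramifiedAt_of_specializationExists
    {p : ℕ} {S : Finset ℕ}
    {𝒪 : Type} [CommRing 𝒪] [IsDomain 𝒪] [IsDiscreteValuationRing 𝒪]
    [IsAdicComplete (IsLocalRing.maximalIdeal 𝒪) 𝒪]
    {θ : CuspForm.heckeAlgebra N 2 (↑S : Set ℕ) →+* IsLocalRing.ResidueField 𝒪}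
    {T : Type} [CommRing T] [IsLocalRing T] [IsNoetherianRing T]
    [IsAdicComplete (IsLocalRing.maximalIdeal T) T] [Algebra 𝒪 T] [IsLocalHom (algebraMap 𝒪 T)]
    [Module.Finite 𝒪 T] [Module.Free 𝒪 T]
    (hp : p.Prime) (hp𝒪 : (p : 𝒪) ∈ IsLocalRing.maximalIdeal 𝒪) (hpS : p ∈ S)
    (hNS : ∀ q : ℕ, q.Prime → q ∣ N → q ∈ S)
    (hfin : GAL.TorsionFiniteLevel N p) (hfaith : JHeckeFaithful hNS p)
    (hspec : letI := heckeModuleBar N
      SMulCommClass (AlgebraicClosure ℚ ≃ₐ[ℚ] AlgebraicClosure ℚ) HeckeAlg (JZero N) →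
        SpecializationExists (K := ℚ) (L := AlgebraicClosure ℚ) N p (JZero N))
    (H : CuspForm.HeckeGaloisRepDatum N (↑S : Set ℕ) 𝒪 θ T)
    (q : ℕ) (hq : q.Prime) (hqS : q ∉ S) :
    H.ρ.IsUnramifiedAt q :=
  letI := heckeModuleBar N
  haveI := Fermat.Agent.HK.Corr.smulCommClass_heckeModuleBar N
  isUnramifiedAt_of_jzero hp hp𝒪 hpS (jTorsFiniteLevel_of_torsionFiniteLevel N hfin)
    (jFrobeniusQuadratic_of_frobeniusQuadratic N p
      (frobeniusQuadratic_of_specializationExists (hspec inferInstance)))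
    (unramifiedOutside_of_specializationExists (hspec inferInstance)) hfaith H q hq hqS

end

end Fermat.Agent.TraceFn
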