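/-
Finite level of the torsion of `JZero N`, and square-zero monodromy for Hecke Galois data.
-/
import Fermat.Agent.TraceFn.EichlerShimura
import Fermat.Agent.MW.OpenStab
import Fermat.Agent.MW.FFInputs
import Fermat.Agent.MF.Coeff.FieldK

set_option autoImplicit false

namespace Fermat.Agent.TraceFn

open ModularCurve

variable (N : ℕ) [NeZero N]

/-- Each torsion level is fixed by an open subgroup, as soon as it is finite. -/
theorem torsionFiniteLevel_of_finite (p : ℕ)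
    (htor : ∀ k : ℕ, {x : JZero N | p ^ k • x = 0}.Finite) : GAL.TorsionFiniteLevel N p := fun k =>
  haveI : FF.IsFunctionField (AlgebraicClosure ℚ) (modularFunctionFieldBar N) :=
    MF.Coeff.isFunctionField_laurentBaseChange (AlgebraicClosure ℚ) N
  MW.jzero_finite_fixed_level MW.exists_unique_pole (htor k)

variable {N}

/-- If inertia at `q ≠ p` satisfies `(σ - 1)² = 0` on the torsion of `JZero N` then it is
unipotent in every datum. -/
theorem sub_one_sq_eq_zero_of_jzero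
    {p : ℕ} {S : Finset ℕ}
    {𝒪 : Type} [CommRing 𝒪] [IsDomain 𝒪] [IsDiscreteValuationRing 𝒪]
    [IsAdicComplete (IsLocalRing.maximalIdeal 𝒪) 𝒪]
    {θ : CuspForm.heckeAlgebra N 2 (↑S : Set ℕ) →+* IsLocalRing.ResidueField 𝒪}
    {T : Type} [CommRing T] [IsLocalRing T] [IsNoetherianRing T]
    [IsAdicComplete (IsLocalRing.maximalIdeal T) T] [Algebra 𝒪 T] [IsLocalHom (algebraMap 𝒪 T)]
    [Module.Finite 𝒪 T] [Module.Free 𝒪 T]
    (hp : p.Prime) (hp𝒪 : (p : 𝒪) ∈ IsLocalRing.maximalIdeal 𝒪) (hpS : p ∈ S)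
    (hNS : ∀ q : ℕ, q.Prime → q ∣ N → q ∈ S)
    (hfin : JTorsFiniteLevel N p) (hfrob : JFrobeniusQuadratic N p)
    (hfaith : JHeckeFaithful hNS p)
    (H : CuspForm.HeckeGaloisRepDatum N (↑S : Set ℕ) 𝒪 θ T)
    (q : ℕ) (hq : q.Prime) (hqp : q ≠ p)
    (hmono : ∀ A : ValuationSubring (AlgebraicClosure ℚ), A.LiesOverPrime q →
      ∀ σ ∈ A.inertiaSubgroupIn ℚ, ∀ x : JZero N, (∃ n : ℕ, p ^ n • x = 0) →
        σ • (σ • x - x) = σ • x - x) :
    ∀ A : ValuationSubring (AlgebraicClosure ℚ), A.LiesOverPrime q →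
      ∀ σ ∈ A.inertiaSubgroupIn ℚ, (H.ρ.ρ σ - 1) ^ 2 = 0 := by
  have : Fact p.Prime := ⟨hp⟩
  intro A hA σ hσ
  refine (jzeroTower N S p hpS hp hNS hfin hfrob).sub_one_sq_eq_zero H.ρ (datumEval hNS H) hpS
    (frobCompatible_datum H) (isSeparating_jzeroTower hp𝒪 hpS hfin hfrob hfaith H)
    H.residual_absIrr (fun n => torsionTower_gal_sub_one_sq (M := JZero N) n σ fun x hx =>
      hmono A hA σ hσ x ⟨n, hx⟩)
    fun n => cycExp_inertia hq hqp hA hσ

/-- If inertia at `q ≠ p` satisfies `(σ - 1)² = 0` on the torsion of `JZero N` then the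
characteristic polynomial is `(X - 1) ^ 2` in every datum. -/
theorem isUnipotentOnInertiaAt_of_jzero
    {p : ℕ} {S : Finset ℕ}
    {𝒪 : Type} [CommRing 𝒪] [IsDomain 𝒪] [IsDiscreteValuationRing 𝒪]
    [IsAdicComplete (IsLocalRing.maximalIdeal 𝒪) 𝒪]
    {θ : CuspForm.heckeAlgebra N 2 (↑S : Set ℕ) →+* IsLocalRing.ResidueField 𝒪}
    {T : Type} [CommRing T] [IsLocalRing T] [IsNoetherianRing T]
    [IsAdicComplete (IsLocalRing.maximalIdeal T) T] [Algebra 𝒪 T] [IsLocalHom (algebraMap 𝒪 T)]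
    [Module.Finite 𝒪 T] [Module.Free 𝒪 T]
    (hp : p.Prime) (hp𝒪 : (p : 𝒪) ∈ IsLocalRing.maximalIdeal 𝒪) (hpS : p ∈ S)
    (hNS : ∀ q : ℕ, q.Prime → q ∣ N → q ∈ S)
    (hfin : JTorsFiniteLevel N p) (hfrob : JFrobeniusQuadratic N p)
    (hfaith : JHeckeFaithful hNS p)
    (H : CuspForm.HeckeGaloisRepDatum N (↑S : Set ℕ) 𝒪 θ T)
    (q : ℕ) (hq : q.Prime) (hqp : q ≠ p)
    (hmono : ∀ A : ValuationSubring (AlgebraicClosure ℚ), A.LiesOverPrime q →
      ∀ σ ∈ A.inertiaSubgroupIn ℚ, ∀ x : JZero N, (∃ n : ℕ, p ^ n • x = 0) →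
        σ • (σ • x - x) = σ • x - x) :
    H.ρ.IsUnipotentOnInertiaAt q := by
  have : Fact p.Prime := ⟨hp⟩
  intro A hA σ hσ
  refine (jzeroTower N S p hpS hp hNS hfin hfrob).charpoly_eq_sub_one_sq H.ρ (datumEval hNS H) hpS
    (frobCompatible_datum H) (isSeparating_jzeroTower hp𝒪 hpS hfin hfrob hfaith H)
    H.residual_absIrr (fun n => torsionTower_gal_sub_one_sq (M := JZero N) n σ fun x hx =>
      hmono A hA σ hσ x ⟨n, hx⟩)
    fun n => cycExp_inertia hq hqp hA hσ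

end Fermat.Agent.TraceFn
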