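/-
Saturation of a finitely generated group inside integer matrices, and the resulting criterion for
faithfulness of the Hecke action on torsion levels.
-/
import Fermat.Agent.TraceFn.JZero
import Fermat.Agent.HK.TRep
import Mathlib.RingTheory.Filtration

set_option autoImplicit false

noncomputable section

namespace Fermat.Agent.TraceFn

/-- An element of a group embedded in `ι → ℤ` whose image is divisible by a high power of `p` is
itself divisible by a given power of `p`. -/
theorem exists_pow_dvd_of_coords {A : Type*} [AddCommGroup A] {ι : Type*} [Finite ι]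
    (f : A →+ (ι → ℤ)) (hf : Function.Injective f) (p k : ℕ) :
    ∃ n : ℕ, ∀ a : A, (∀ i, (p : ℤ) ^ n ∣ f a i) → ∃ b : A, a = (p ^ k) • b := by
  obtain ⟨c, hc⟩ := Ideal.exists_pow_inf_eq_pow_smul (Ideal.span {(p : ℤ)})
    (LinearMap.range f.toIntLinearMap)
  refine ⟨c + k, fun a ha => ?_⟩
  choose u hu using ha
  have hmem : f a ∈ (Ideal.span {(p : ℤ)}) ^ (c + k) • (⊤ : Submodule ℤ (ι → ℤ)) ⊓
      LinearMap.range f.toIntLinearMap := by
    refine ⟨?_, ⟨a, rfl⟩⟩
    rw [show f a = (p : ℤ) ^ (c + k) • u from funext fun i => by simp [hu i]]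
    exact Submodule.smul_mem_smul (Ideal.pow_mem_pow (Ideal.mem_span_singleton_self _) _)
      Submodule.mem_top
  rw [hc (c + k) (Nat.le_add_right c k), Nat.add_sub_cancel_left] at hmem
  have hmem' : f a ∈ (Ideal.span {(p : ℤ)}) ^ k • LinearMap.range f.toIntLinearMap :=
    Submodule.smul_mono le_rfl inf_le_right hmem
  rw [Ideal.span_singleton_pow, Submodule.ideal_span_singleton_smul] at hmem'
  obtain ⟨_, ⟨b, rfl⟩, hb⟩ := hmem'
  refine ⟨b, hf ?_⟩
  rw [map_nsmul, ← hb]
  show ((p : ℤ) ^ k) • f b = _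
  rw [← Nat.cast_smul_eq_nsmul ℤ, Nat.cast_pow]

variable {N : ℕ} [NeZero N] {S : Finset ℕ}

/-- The inclusion of the Hecke algebra away from `S` in the full one. -/
def awayToFull (N : ℕ) [NeZero N] (S : Finset ℕ) :
    CuspForm.heckeAlgebra N 2 (↑S : Set ℕ) →+* HK.TFull N :=
  (Subalgebra.inclusion (CuspForm.heckeAlgebra_mono (Set.empty_subset _))).toRingHom

/-- Faithfulness on torsion levels, from divisibility of the integral matrices. -/
theorem jHeckeFaithful_of_heckeRep (hNS : ∀ q : ℕ, q.Prime → q ∣ N → q ∈ S) (p : ℕ)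
    (hmat : ∀ n : ℕ, ∃ n' : ℕ, ∀ P : AwayHecke S,
      (∀ x : ModularCurve.JZero N, (p ^ n') • x = 0 → jHecke N (awayIncl S P) x = 0) →
        ∀ i j, (p : ℤ) ^ n ∣ HK.heckeRep N (awayToFull N S (awayEval N S hNS P)) i j) :
    JHeckeFaithful hNS p := by
  intro k
  let f : CuspForm.heckeAlgebra N 2 (↑S : Set ℕ) →+
      (Fin (MF.ParHom.parRank N) × Fin (MF.ParHom.parRank N) → ℤ) :=
    { toFun := fun t ij => HK.heckeRep N (awayToFull N S t) ij.1 ij.2
      map_zero' := funext fun _ => by simp
      map_add' := fun s t => funext fun _ => by simp }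
  have hf : Function.Injective f := fun s t h => by
    have h' : HK.heckeRep N (awayToFull N S s) = HK.heckeRep N (awayToFull N S t) :=
      Matrix.ext fun i j => congrFun h (i, j)
    exact Subalgebra.inclusion_injective _ (HK.heckeRep_injective N h')
  obtain ⟨n, hn⟩ := exists_pow_dvd_of_coords f hf p k
  obtain ⟨n', hn'⟩ := hmat n
  exact ⟨n', fun P hP => hn _ fun ij => hn' P hP ij.1 ij.2⟩

end Fermat.Agent.TraceFn
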