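/-
The two statements about the Jacobian at a prime exactly dividing the level.
-/
import Fermat.Agent.BAD.Modular.PushHecke
import Fermat.Prelude.Def_GaloisRep_LocalConditions
import Fermat.Prelude.Def_ModularCurve_ArithmeticGalois

set_option autoImplicit false

noncomputable section

open ModularCurve

namespace Fermat.Agent.TraceFn

variable (N' q p : ℕ) [NeZero N'] [NeZero q]

/-- Semistable monodromy: inertia at `q` satisfies `(σ - 1)² = 0` on the `p`-power torsion of
`J₀(N' q)`. -/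
def InertiaSubOneSq : Prop :=
  ∀ A : ValuationSubring (AlgebraicClosure ℚ), A.LiesOverPrime q →
    ∀ σ ∈ A.inertiaSubgroupIn ℚ, ∀ x : JZero (N' * q), (∃ n : ℕ, p ^ n • x = 0) →
      σ • (σ • x - x) = σ • x - x

/-- `(σ² - q²) (σ² - 1) = 0` for a Frobenius `σ` at `q`, on `p`-power torsion killed by both
pushforwards to level `N'`. -/
def FrobeniusSqOnPushTrivial : Prop :=
  ∀ A : ValuationSubring (AlgebraicClosure ℚ), A.LiesOverPrime q →
    ∀ σ : AlgebraicClosure ℚ ≃ₐ[ℚ] AlgebraicClosure ℚ, A.IsFrobeniusAt σ q →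
      ∀ (h₁ : N' * 1 ∣ N' * q) (h₂ : N' * q ∣ N' * q) (z : JZero (N' * q)),
        (∃ n : ℕ, p ^ n • z = 0) →
        BAD.Modular.degenPush (AlgebraicClosure ℚ) 1 h₁ z = 0 →
        BAD.Modular.degenPush (AlgebraicClosure ℚ) q h₂ z = 0 →
          σ • σ • (σ • σ • z - z) = (q ^ 2) • (σ • σ • z - z)

end Fermat.Agent.TraceFn
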