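/-
S31 reduced to its named inputs: finiteness of the torsion, divisibility of the integral Hecke
matrices of polynomials killing a deep torsion level, and specialisations (S37).
-/
import Fermat.Agent.TraceFn.FiniteLevel
import Fermat.Agent.TraceFn.Saturation
import Fermat.Agent.HK.HeckeFinal

set_option autoImplicit false

open ModularCurve

namespace Fermat.Agent.TraceFn

theorem isUnramifiedAt_of_inputs
    {p : ℕ} {N : ℕ} [NeZero N] {S : Finset ℕ}
    {𝒪 : Type} [CommRing 𝒪] [IsDomain 𝒪] [IsDiscreteValuationRing 𝒪]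
    [IsAdicComplete (IsLocalRing.maximalIdeal 𝒪) 𝒪]
    {θ : CuspForm.heckeAlgebra N 2 (↑S : Set ℕ) →+* IsLocalRing.ResidueField 𝒪}
    {T : Type} [CommRing T] [IsLocalRing T] [IsNoetherianRing T]
    [IsAdicComplete (IsLocalRing.maximalIdeal T) T] [Algebra 𝒪 T] [IsLocalHom (algebraMap 𝒪 T)]
    [Module.Finite 𝒪 T] [Module.Free 𝒪 T]
    (htor : ∀ k : ℕ, {x : JZero N | p ^ k • x = 0}.Finite)
    (hspec : HeckeOperatorsCommuteBar N →
      letI := heckeModuleBar N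
      ∀ (_ : SMulCommClass (AlgebraicClosure ℚ ≃ₐ[ℚ] AlgebraicClosure ℚ) HeckeAlg (JZero N)),
        SpecializationExists (K := ℚ) (L := AlgebraicClosure ℚ) N p (JZero N))
    (hp : p.Prime) (hp𝒪 : (p : 𝒪) ∈ IsLocalRing.maximalIdeal 𝒪) (hpS : p ∈ S)
    (hNS : ∀ q : ℕ, q.Prime → q ∣ N → q ∈ S)
    (hmat : ∀ n : ℕ, ∃ n' : ℕ, ∀ P : AwayHecke S,
      (∀ x : JZero N, (p ^ n') • x = 0 → jHecke N (awayIncl S P) x = 0) →
        ∀ i j, (p : ℤ) ^ n ∣ HK.heckeRep N (awayToFull N S (awayEval N S hNS P)) i j)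
    (H : CuspForm.HeckeGaloisRepDatum N (↑S : Set ℕ) 𝒪 θ T)
    (q : ℕ) (hq : q.Prime) (hqS : q ∉ S) :
    H.ρ.IsUnramifiedAt q :=
  isUnramifiedAt_of_specializationExists hp hp𝒪 hpS hNS (torsionFiniteLevel_of_finite N p htor)
    (jHeckeFaithful_of_heckeRep hNS p hmat)
    (hspec (HK.Corr.heckeOperatorsCommuteBar N)) H q hq hqS

end Fermat.Agent.TraceFn
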