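/-
Specialisations at good primes for the Jacobians (from the lifting property of `X₀(N)`).
-/
import Fermat.Agent.RED.Specialization.OfLift
import Fermat.Agent.RED.X0LiftAll

set_option autoImplicit false

open ModularCurve

namespace Fermat.Agent.TraceFn

theorem specializationExists_jZero (N p : ℕ) [NeZero N] (hcomm : HeckeOperatorsCommuteBar N) :
    letI := heckeModuleBar N
    ∀ (_ : SMulCommClass (AlgebraicClosure ℚ ≃ₐ[ℚ] AlgebraicClosure ℚ) HeckeAlg (JZero N)),
      SpecializationExists (K := ℚ) (L := AlgebraicClosure ℚ) N p (JZero N) :=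
  RED.Spec.specializationExists_of_x0Lift N p hcomm fun _ hℓ hN _ hA => RED.x0Lift hℓ hN hA

end Fermat.Agent.TraceFn
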