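/-
S34 from specialisations at good primes and semistable monodromy at a prime exactly dividing the
level.
-/
import Fermat.Agent.TraceFn.BadPrimeInputs
import Fermat.Agent.TraceFn.EichlerShimura
import Fermat.Agent.TraceFn.FiniteLevel
import Fermat.Agent.HK.TateFinal

set_option autoImplicit false

open ModularCurve

namespace Fermat.Agent.TraceFn

theorem isUnipotentOnInertiaAt_of_inputs
    (hspec : ∀ (N p : ℕ) [NeZero N], HeckeOperatorsCommuteBar N →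
      letI := heckeModuleBar N
      ∀ (_ : SMulCommClass (AlgebraicClosure ℚ ≃ₐ[ℚ] AlgebraicClosure ℚ) HeckeAlg (JZero N)),
        SpecializationExists (K := ℚ) (L := AlgebraicClosure ℚ) N p (JZero N))
    (hmono : ∀ (N' q p : ℕ) [NeZero N'] [NeZero q], q.Prime → p.Prime → q ≠ p → ¬ q ∣ N' →
      InertiaSubOneSq N' q p)
    {𝒪 : Type} [CommRing 𝒪] [IsDomain 𝒪] [IsDiscreteValuationRing 𝒪]
    [IsAdicComplete (IsLocalRing.maximalIdeal 𝒪) 𝒪]
    {p : ℕ} (hp : p.Prime) (hp𝒪 : (p : 𝒪) ∈ IsLocalRing.maximalIdeal 𝒪)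
    {N : ℕ} [NeZero N] {S : Finset ℕ} (hpS : p ∈ S) (hNS : ∀ q : ℕ, q.Prime → q ∣ N → q ∈ S)
    {θ : CuspForm.heckeAlgebra N 2 (↑S : Set ℕ) →+* IsLocalRing.ResidueField 𝒪}
    {T : Type} [CommRing T] [IsLocalRing T] [IsNoetherianRing T]
    [IsAdicComplete (IsLocalRing.maximalIdeal T) T] [Algebra 𝒪 T] [IsLocalHom (algebraMap 𝒪 T)]
    [Module.Finite 𝒪 T] [Module.Free 𝒪 T]
    (H : CuspForm.HeckeGaloisRepDatum N (↑S : Set ℕ) 𝒪 θ T)
    (q : ℕ) (hq : q.Prime) (hqp : q ≠ p) (hqN : q ∣ N) (hq2 : ¬ q ^ 2 ∣ N) :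
    H.ρ.IsUnipotentOnInertiaAt q := by
  haveI : Fact p.Prime := ⟨hp⟩
  obtain ⟨N', rfl⟩ : ∃ N', N = N' * q := ⟨N / q, (Nat.div_mul_cancel hqN).symm⟩
  haveI : NeZero q := ⟨hq.ne_zero⟩
  haveI : NeZero N' := ⟨left_ne_zero_of_mul (NeZero.ne (N' * q))⟩
  have hqN' : ¬ q ∣ N' := fun h => hq2 (by rw [pow_two]; exact mul_dvd_mul_right h q)
  letI := heckeModuleBar (N' * q)
  haveI := Fermat.Agent.HK.Corr.smulCommClass_heckeModuleBar (N' * q)
  exact isUnipotentOnInertiaAt_of_jzero hp hp𝒪 hpS hNS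
    (jTorsFiniteLevel_of_torsionFiniteLevel _ (HK.torsionFiniteLevel (N' * q) p))
    (jFrobeniusQuadratic_of_frobeniusQuadratic _ p (frobeniusQuadratic_of_specializationExists
      (hspec (N' * q) p (HK.Corr.heckeOperatorsCommuteBar _) inferInstance)))
    (HK.jHeckeFaithful (N' * q) p hNS) H q hq hqp (hmono N' q p hq hp hqp hqN')

end Fermat.Agent.TraceFn
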