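/-
Hecke polynomials separating a newform from lower level, and their effect on the torsion of the
Jacobians.
-/
import Fermat.Agent.TraceFn.JZero
import Fermat.Agent.HK.TateFinal
import Fermat.Agent.Newforms.StrongMultOne
import Fermat.Agent.Eigen.Unconditional
import Fermat.Agent.BAD.Modular.PushHecke

set_option autoImplicit false

noncomputable section

open ModularCurve CongruenceSubgroup ModularFormClass
open scoped IsMulCommutative

namespace Fermat.Agent.TraceFn

variable {N : ℕ} [NeZero N] {S : Finset ℕ}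

theorem awayEval_surjective (hNS : ∀ q : ℕ, q.Prime → q ∣ N → q ∈ S) :
    Function.Surjective (awayEval N S hNS) := by
  intro x
  obtain ⟨x, hx⟩ := x
  induction hx using Algebra.adjoin_induction with
  | mem x hx =>
    rcases hx with ⟨ℓ, hℓ, hℓN, hℓS, rfl⟩ | ⟨q, hqN, hq, hqS, rfl⟩
    · exact ⟨awayGen S ℓ, awayEval_awayGen N S hNS hℓ hℓN hℓS⟩
    · exact absurd (Finset.mem_coe.mpr (hNS q hq hqN)) hqS
  | algebraMap a => exact ⟨(a : AwayHecke S), (map_intCast _ a).trans (Subtype.ext (by simp))⟩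
  | add x y hx hy ihx ihy =>
    obtain ⟨a, ha⟩ := ihx
    obtain ⟨b, hb⟩ := ihy
    exact ⟨a + b, by rw [map_add, ha, hb]; rfl⟩
  | mul x y hx hy ihx ihy =>
    obtain ⟨a, ha⟩ := ihx
    obtain ⟨b, hb⟩ := ihy
    exact ⟨a * b, by rw [map_mul, ha, hb]; rfl⟩

/-- A polynomial vanishing in the Hecke algebra kills the `p`-power torsion of the Jacobian. -/
theorem jHecke_eq_zero_of_awayEval_eq_zero (hNS : ∀ q : ℕ, q.Prime → q ∣ N → q ∈ S) {p : ℕ}
    [Fact p.Prime] {P : AwayHecke S} (hP : awayEval N S hNS P = 0) {n : ℕ} {x : JZero N}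
    (hx : (p ^ n) • x = 0) : jHecke N (awayIncl S P) x = 0 := by
  have h := HK.Corr.heckeOperatorsCommuteBar N
  rw [jHecke_apply, heckeModuleBar_smul_def h]
  have hz : x ∈ HK.jTor N p n := hx
  have h1 := (HK.tateCoords N p).e_heckeEvalBar h (awayIncl S P) n ⟨x, hz⟩
  rw [← HK.awayToFull_awayEval hNS, hP, map_zero, map_zero, Matrix.map_zero _ (map_zero _),
    Matrix.zero_mulVec] at h1
  exact congrArg Subtype.val ((EmbeddingLike.map_eq_zero_iff
    (f := (HK.tateCoords N p).e n)).mp h1)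

/-- Some Hecke polynomial vanishes at a level not divisible by the level of a newform but not on
the newform. -/
theorem exists_kill_of_isNewform {M : ℕ} [NeZero M] {g : CuspForm (Gamma0 M) 2}
    (hg : g.IsNewform) (hMS : ∀ q : ℕ, q.Prime → q ∣ M → q ∈ S)
    (hNS : ∀ q : ℕ, q.Prime → q ∣ N → q ∈ S) (hMN : ¬ M ∣ N)
    (chig : CuspForm.heckeAlgebra M 2 (↑S : Set ℕ) →+* ℂ)
    (hchig : ∀ (ℓ : ℕ) (hℓ : ℓ.Prime) (hℓM : ¬ ℓ ∣ M) (hℓS : ℓ ∉ (↑S : Set ℕ)),
      chig (CuspForm.heckeAlgebra.T hℓ hℓM hℓS) = qCoeff g ℓ) :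
    ∃ e : AwayHecke S, awayEval N S hNS e = 0 ∧ chig (awayEval M S hMS e) ≠ 0 := by
  by_contra hne
  push Not at hne
  let χ : CuspForm.heckeAlgebra N 2 (↑S : Set ℕ) →+* ℂ :=
    RingHom.liftOfSurjective (awayEval N S hNS) (awayEval_surjective hNS)
      ⟨chig.comp (awayEval M S hMS), fun e he => hne e he⟩
  obtain ⟨f, hf, hfχ⟩ := Eigen.exists_eigenform_eigenChar_eq χ
  refine hMN (Newforms.dvd_of_isNewform_of_eigenform hg hf S fun ℓ hℓ hℓS => ?_)
  have hℓN : ¬ ℓ ∣ N := fun h => hℓS (hNS ℓ hℓ h)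
  have hℓM : ¬ ℓ ∣ M := fun h => hℓS (hMS ℓ hℓ h)
  have hℓS' : ℓ ∉ (↑S : Set ℕ) := fun h => hℓS (Finset.mem_coe.mp h)
  rw [← hchig ℓ hℓ hℓM hℓS', ← Eigen.eigenChar_T hf (↑S : Set ℕ) hℓ hℓN hℓS', hfχ,
    ← awayEval_awayGen N S hNS hℓ hℓN hℓS', ← awayEval_awayGen M S hMS hℓ hℓM hℓS']
  exact RingHom.liftOfSurjective_comp_apply _ _ _ _

section Push

variable {N' q : ℕ} [NeZero N'] [NeZero q]

/-- The degeneracy pushforwards intertwine the Hecke polynomials away from the level. -/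
theorem degenPush_jHecke (hq : q.Prime) (hS : ∀ l : ℕ, l.Prime → l ∣ N' * q → l ∈ S) (d : ℕ)
    [NeZero d] (hd : d ∣ q) (h : N' * d ∣ N' * q) (e : AwayHecke S) (z : JZero (N' * q)) :
    BAD.Modular.degenPush (AlgebraicClosure ℚ) d h (jHecke (N' * q) (awayIncl S e) z) =
      jHecke N' (awayIncl S e) (BAD.Modular.degenPush (AlgebraicClosure ℚ) d h z) := by
  induction e using MvPolynomial.induction_on generalizing z with
  | C a => simp [map_intCast]
  | add e e' he he' =>
    rw [map_add, map_add, map_add]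
    show BAD.Modular.degenPush (AlgebraicClosure ℚ) d h
        (jHecke (N' * q) (awayIncl S e) z + jHecke (N' * q) (awayIncl S e') z) =
      jHecke N' (awayIncl S e) (BAD.Modular.degenPush (AlgebraicClosure ℚ) d h z) +
        jHecke N' (awayIncl S e') (BAD.Modular.degenPush (AlgebraicClosure ℚ) d h z)
    rw [map_add, he, he']
  | mul_X e i ih =>
    rw [map_mul, map_mul, map_mul]
    show BAD.Modular.degenPush (AlgebraicClosure ℚ) d h
        (jHecke (N' * q) (awayIncl S e) (jHecke (N' * q) (awayIncl S (MvPolynomial.X i)) z)) =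
      jHecke N' (awayIncl S e)
        (jHecke N' (awayIncl S (MvPolynomial.X i)) (BAD.Modular.degenPush (AlgebraicClosure ℚ) d h z))
    rw [ih]
    congr 1
    have hgen : awayIncl S (MvPolynomial.X i) = heckeGen i.1 := MvPolynomial.rename_X _ _
    have : NeZero (i.1 : ℕ) := ⟨i.1.2.ne_zero⟩
    rw [hgen, jHecke_apply, jHecke_apply,
      heckeModuleBar_heckeGen_smul (HK.Corr.heckeOperatorsCommuteBar _),
      heckeModuleBar_heckeGen_smul (HK.Corr.heckeOperatorsCommuteBar _)]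
    exact BAD.Modular.degenPush_heckeOperatorAlong hq i.1.2 (fun hdvd => i.2 (hS _ i.1.2 hdvd))
      d hd h z

end Push

end Fermat.Agent.TraceFn
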