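/-
Frobenius at a prime of multiplicative reduction: if `(σ² - q²)(σ² - 1)` kills the image of a
Hecke element `e` on every torsion level and `τ e ≠ 0`, then the characteristic polynomial of `σ`
is `X² ∓ (q + 1) X + q`.
-/
import Fermat.Agent.TraceFn.Tower

set_option autoImplicit false

namespace Fermat.Agent.TraceFn

open Polynomial

local notation "Qbar" => AlgebraicClosure ℚ
local notation "Γℚ" => AlgebraicClosure ℚ ≃ₐ[ℚ] AlgebraicClosure ℚ

/-- The identity behind `charpoly_frobenius_steinberg`, for commuting elements. -/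
theorem steinberg_identity {C : Type*} [Ring C] (e u w : C) (heu : Commute e u) (hew : Commute e w)
    (hcuw : Commute w u) (hwu : w * u = 1) (q j : ℕ)
    (h : e * (u ^ 4 - ((1 + q ^ 2 : ℕ) : C) * u ^ 2 + ((q ^ 2 : ℕ) : C)) = 0) :
    e * (u ^ (j + 4) + ((q ^ (j + 4) : ℕ) : C) * w ^ (j + 4)) +
      -((1 + q ^ 2 : ℕ) : C) * e * (u ^ (j + 2) + ((q ^ (j + 2) : ℕ) : C) * w ^ (j + 2)) +
      ((q ^ 2 : ℕ) : C) * e * (u ^ j + ((q ^ j : ℕ) : C) * w ^ j) = 0 := by
  letI : CommRing (Subring.closure ({e, u, w} : Set C)) :=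
    Subring.closureCommRingOfComm fun x hx y hy => by
      rcases hx with rfl | rfl | rfl <;> rcases hy with rfl | rfl | rfl <;>
        first
          | rfl
          | exact heu.eq
          | exact heu.eq.symm
          | exact hew.eq
          | exact hew.eq.symm
          | exact hcuw.eq
          | exact hcuw.eq.symm
  set e' : Subring.closure ({e, u, w} : Set C) := ⟨e, Subring.subset_closure (by simp)⟩
  set u' : Subring.closure ({e, u, w} : Set C) := ⟨u, Subring.subset_closure (by simp)⟩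
  set w' : Subring.closure ({e, u, w} : Set C) := ⟨w, Subring.subset_closure (by simp)⟩
  have hwu' : w' * u' = 1 := Subtype.ext hwu
  have h' : e' * (u' ^ 4 - ((1 + q ^ 2 : ℕ) : Subring.closure ({e, u, w} : Set C)) * u' ^ 2 +
      ((q ^ 2 : ℕ) : Subring.closure ({e, u, w} : Set C))) = 0 := Subtype.ext (by push_cast at h ⊢; exact h)
  push_cast at h'
  have key : e' * (u' ^ (j + 4) + (q : Subring.closure ({e, u, w} : Set C)) ^ (j + 4) * w' ^ (j + 4)) +
      -(1 + (q : Subring.closure ({e, u, w} : Set C)) ^ 2) * e' *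
        (u' ^ (j + 2) + (q : Subring.closure ({e, u, w} : Set C)) ^ (j + 2) * w' ^ (j + 2)) +
      (q : Subring.closure ({e, u, w} : Set C)) ^ 2 * e' *
        (u' ^ j + (q : Subring.closure ({e, u, w} : Set C)) ^ j * w' ^ j) = 0 := by
    have h4 : w' ^ 4 * u' ^ 4 = 1 := by rw [← mul_pow, hwu', one_pow]
    have h2 : w' ^ 2 * u' ^ 2 = 1 := by rw [← mul_pow, hwu', one_pow]
    linear_combination (u' ^ j + (q : Subring.closure ({e, u, w} : Set C)) ^ (j + 2) * w' ^ (j + 4))
        * h' + (-(e' * (q : Subring.closure ({e, u, w} : Set C)) ^ (j + 2) * w' ^ j)) * h4 +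
      (e' * (q : Subring.closure ({e, u, w} : Set C)) ^ (j + 2) *
        (1 + (q : Subring.closure ({e, u, w} : Set C)) ^ 2) * w' ^ (j + 2)) * h2
  have := congrArg Subtype.val key
  push_cast at this ⊢
  exact this

namespace QuadraticTower

variable {p : ℕ} [Fact p.Prime] {S : Finset ℕ} {R : Type} [CommRing R] {a : ℕ → R}
  (D : QuadraticTower p S R a)
  {T : Type} [CommRing T] [IsLocalRing T] (ρ : GaloisRepAdic T) (τ : R →+* T)

/-- A linear relation with coefficients in `R` among the operators `trFun` is inherited by the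
traces. -/
theorem sum_act_trace_eq_zero [IsNoetherianRing T] (hpS : p ∈ S)
    (hρ : FrobCompatible (S := S) (a := a) ρ τ) (hsep : D.IsSeparating τ) {ι : Type*}
    (s : Finset ι) (c : ι → R) (g : ι → Γℚ)
    (h : ∀ n, ∑ i ∈ s, D.act n (c i) * D.trFun n (g i) = 0) :
    ∑ i ∈ s, τ (c i) * LinearMap.trace T ρ.V (ρ.ρ (g i)) = 0 := by
  suffices hk : ∀ k, ∑ i ∈ s, τ (c i) * LinearMap.trace T ρ.V (ρ.ρ (g i)) ∈
      IsLocalRing.maximalIdeal T ^ k by
    rw [← Ideal.mem_bot, ← Ideal.iInf_pow_eq_bot_of_isLocalRing (IsLocalRing.maximalIdeal T)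
      (IsLocalRing.maximalIdeal.isMaximal T).ne_top, Ideal.mem_iInf]
    exact hk
  intro k
  obtain ⟨n, hn⟩ := hsep k
  choose r hr using fun i => D.exists_trace_approx ρ τ hpS hρ k n (g i)
  have h1 : τ (∑ i ∈ s, c i * r i) ∈ IsLocalRing.maximalIdeal T ^ k := by
    refine hn _ ?_
    rw [map_sum, ← h n]
    exact Finset.sum_congr rfl fun i _ => by rw [map_mul, (hr i).1]
  have h2 : ∑ i ∈ s, τ (c i) * (LinearMap.trace T ρ.V (ρ.ρ (g i)) - τ (r i)) ∈
      IsLocalRing.maximalIdeal T ^ k :=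
    sum_mem fun i _ => Ideal.mul_mem_left _ _ (hr i).2
  have h3 : ∑ i ∈ s, τ (c i) * LinearMap.trace T ρ.V (ρ.ρ (g i)) =
      τ (∑ i ∈ s, c i * r i) +
        ∑ i ∈ s, τ (c i) * (LinearMap.trace T ρ.V (ρ.ρ (g i)) - τ (r i)) := by
    simp only [mul_sub, Finset.sum_sub_distrib, map_sum, map_mul]
    abel
  rw [h3]
  exact Ideal.add_mem _ h1 h2

/-- `g + χ(g) g⁻¹` with the exponent given as a natural number. -/
theorem trFun_eq (n : ℕ) (g : Γℚ) (c : ℕ) (hc : cycExp p n g = c) :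
    D.trFun n g = D.gal n g + (c : Module.End ℤ (D.X n)) * D.gal n g⁻¹ := by
  have : NeZero (p ^ n) := ⟨pow_ne_zero _ (Fact.out : p.Prime).ne_zero⟩
  rw [trFun, D.natCast_eq_of_cast_eq n (i := (cycExp p n g).val) (j := c)
    (by rw [ZMod.natCast_val, ZMod.cast_id, hc])]

/-- The determinant at an element where the cyclotomic exponent is `q`. -/
theorem charpoly_eq_of_cycExp [IsNoetherianRing T] [IsDomain T] (h2 : (2 : T) ≠ 0) (hpS : p ∈ S)
    (hρ : FrobCompatible (S := S) (a := a) ρ τ) (hsep : D.IsSeparating τ)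
    {σ : Γℚ} {q : ℕ} (hσ : ∀ n, cycExp p n σ = q) :
    LinearMap.charpoly (ρ.ρ σ) =
      Polynomial.X ^ 2 - C (LinearMap.trace T ρ.V (ρ.ρ σ)) * Polynomial.X + C (q : T) := by
  classical
  let b := Module.finBasisOfFinrankEq T ρ.V ρ.finrank_eq
  set M := LinearMap.toMatrix b b (ρ.ρ σ) with hM
  rw [← LinearMap.charpoly_toMatrix _ b, ← hM, Matrix.charpoly_fin_two,
    LinearMap.trace_eq_matrix_trace T b, ← hM]
  suffices hd : M.det = (q : T) by rw [hd]
  -- approximate: `t ^ 2 - tr(σ ^ 2) - 2 q` lies in every power of the maximal ideal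
  have hkey : LinearMap.trace T ρ.V (ρ.ρ σ) ^ 2 - LinearMap.trace T ρ.V (ρ.ρ (σ * σ)) - 2 * (q : T)
      = 0 := by
    rw [← Ideal.mem_bot, ← Ideal.iInf_pow_eq_bot_of_isLocalRing (IsLocalRing.maximalIdeal T)
      (IsLocalRing.maximalIdeal.isMaximal T).ne_top, Ideal.mem_iInf]
    intro k
    obtain ⟨n, hn⟩ := hsep k
    obtain ⟨r, hr, hr'⟩ := D.exists_trace_approx ρ τ hpS hρ k n σ
    obtain ⟨s, hs, hs'⟩ := D.exists_trace_approx ρ τ hpS hρ k n (σ * σ)
    have hz : τ (r * r - s - ((2 * q : ℕ) : R)) ∈ IsLocalRing.maximalIdeal T ^ k := by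
      refine hn _ ?_
      rw [map_sub, map_sub, map_mul, hr, hs, map_natCast, D.trFun_eq n σ q (hσ n),
        D.trFun_eq n (σ * σ) (q * q) (by rw [map_mul, hσ n, Nat.cast_mul])]
      set u := D.gal n σ with hu
      set w := D.gal n σ⁻¹ with hw
      have huw : u * w = 1 := by rw [hu, hw, ← map_mul, mul_inv_cancel, map_one]
      have hwu : w * u = 1 := by rw [hu, hw, ← map_mul, inv_mul_cancel, map_one]
      rw [map_mul, mul_inv_rev, map_mul, ← hu, ← hw, Nat.cast_mul, Nat.cast_mul, Nat.cast_ofNat]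
      set c : Module.End ℤ (D.X n) := (q : Module.End ℤ (D.X n)) with hc
      have e1 : u * (c * w) = c := by
        rw [← mul_assoc, ← (Nat.cast_commute q u).eq, mul_assoc, huw, mul_one]
      have e2 : c * w * u = c := by rw [mul_assoc, hwu, mul_one]
      have e3 : c * w * (c * w) = c * c * (w * w) := by
        rw [mul_assoc c w, ← mul_assoc w c, ← (Nat.cast_commute q w).eq, mul_assoc c w, ← mul_assoc]
      rw [add_mul, mul_add, mul_add, e1, e2, e3]
      noncomm_ring
    rw [map_sub, map_sub, map_mul, map_natCast, Nat.cast_mul, Nat.cast_ofNat] at hz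
    have e : LinearMap.trace T ρ.V (ρ.ρ σ) ^ 2 - LinearMap.trace T ρ.V (ρ.ρ (σ * σ)) - 2 * (q : T)
        = (τ r * τ r - τ s - 2 * (q : T)) +
          (LinearMap.trace T ρ.V (ρ.ρ σ) - τ r) * (LinearMap.trace T ρ.V (ρ.ρ σ) + τ r) -
          (LinearMap.trace T ρ.V (ρ.ρ (σ * σ)) - τ s) := by ring
    rw [e]
    exact Ideal.sub_mem _ (Ideal.add_mem _ hz (Ideal.mul_mem_right _ _ hr')) hs'
  rw [map_mul ρ.ρ, LinearMap.trace_eq_matrix_trace T b, LinearMap.trace_eq_matrix_trace T b,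
    LinearMap.toMatrix_mul, ← hM] at hkey
  refine mul_left_cancel₀ h2 ?_
  rw [Matrix.det_fin_two]
  simp only [Matrix.trace_fin_two, Matrix.mul_apply, Fin.sum_univ_two] at hkey
  linear_combination hkey

/-- Steinberg shape of the characteristic polynomial at a Frobenius element. -/
theorem charpoly_frobenius_steinberg [IsNoetherianRing T] [IsDomain T] [CharZero T] (hpS : p ∈ S)
    (hρ : FrobCompatible (S := S) (a := a) ρ τ) (hsep : D.IsSeparating τ)
    {q : ℕ} (hq : q.Prime) (hqp : q ≠ p) {A : ValuationSubring Qbar} (hA : A.LiesOverPrime q)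
    {σ : Γℚ} (hσ : A.IsFrobeniusAt σ q) (e : R) (he : τ e ≠ 0)
    (hrel : ∀ n, D.act n e * (D.gal n σ ^ 4 -
      ((1 + q ^ 2 : ℕ) : Module.End ℤ (D.X n)) * D.gal n σ ^ 2 +
      ((q ^ 2 : ℕ) : Module.End ℤ (D.X n))) = 0) :
    LinearMap.charpoly (ρ.ρ σ) =
        Polynomial.X ^ 2 - C ((q : T) + 1) * Polynomial.X + C (q : T) ∨
      LinearMap.charpoly (ρ.ρ σ) =
        Polynomial.X ^ 2 + C ((q : T) + 1) * Polynomial.X + C (q : T) := by
  have hcyc : ∀ n, cycExp p n σ = q := fun n => cycExp_frobenius hq hqp hA hσ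
  have hchar := D.charpoly_eq_of_cycExp ρ τ two_ne_zero hpS hρ hsep hcyc
  set t := LinearMap.trace T ρ.V (ρ.ρ σ) with ht
  have hV : ∀ m, LinearMap.trace T ρ.V (ρ.ρ (σ ^ m)) = lucasV t (q : T) m := fun m => by
    rw [map_pow]; exact trace_pow_eq_lucasV ρ.finrank_eq hchar m
  have hkill : ∀ j : ℕ, τ e * lucasV t (q : T) (j + 4) +
      τ (-((1 + q ^ 2 : ℕ) : R) * e) * lucasV t (q : T) (j + 2) +
      τ (((q ^ 2 : ℕ) : R) * e) * lucasV t (q : T) j = 0 := by
    intro j
    have h := D.sum_act_trace_eq_zero ρ τ hpS hρ hsep (Finset.univ : Finset (Fin 3))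
      ![e, -((1 + q ^ 2 : ℕ) : R) * e, ((q ^ 2 : ℕ) : R) * e] ![σ ^ (j + 4), σ ^ (j + 2), σ ^ j]
      fun n => by
        set u := D.gal n σ with hu
        set w := D.gal n σ⁻¹ with hw
        set ee := D.act n e with hee
        have hwu : w * u = 1 := by rw [hu, hw, ← map_mul, inv_mul_cancel, map_one]
        have htr : ∀ m, D.trFun n (σ ^ m) = u ^ m + ((q ^ m : ℕ) : Module.End ℤ (D.X n)) * w ^ m := by
          intro m
          rw [D.trFun_eq n (σ ^ m) (q ^ m) (by rw [map_pow, hcyc n, Nat.cast_pow]), map_pow,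
            ← inv_pow, map_pow (D.gal n), ← hu, ← hw]
        have hX : ee * (u ^ 4 - ((1 + q ^ 2 : ℕ) : Module.End ℤ (D.X n)) * u ^ 2 +
            ((q ^ 2 : ℕ) : Module.End ℤ (D.X n))) = 0 := hrel n
        have hcomm : Commute ee u := D.commute n e σ
        have hcw : Commute ee w := D.commute n e σ⁻¹
        rw [Fin.sum_univ_three]
        show D.act n e * D.trFun n (σ ^ (j + 4)) +
          D.act n (-((1 + q ^ 2 : ℕ) : R) * e) * D.trFun n (σ ^ (j + 2)) +
          D.act n (((q ^ 2 : ℕ) : R) * e) * D.trFun n (σ ^ j) = 0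
        rw [map_mul, map_mul, map_neg, map_natCast, map_natCast, ← hee, htr, htr, htr]
        exact steinberg_identity ee u w hcomm hcw
          (hwu.trans (by rw [hu, hw, ← map_mul, mul_inv_cancel, map_one])) hwu q j hX
    rw [Fin.sum_univ_three] at h
    simp only [Matrix.cons_val_zero, Matrix.cons_val_one, Matrix.cons_val, hV] at h
    exact h
  have h0 := hkill 0
  have h2 := hkill 2
  simp only [map_mul, map_neg, map_natCast, lucasV] at h0 h2
  push_cast at h0 h2
  have hq2 : (2 : T) * (q : T) ^ 2 ≠ 0 :=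
    mul_ne_zero two_ne_zero (pow_ne_zero _ (Nat.cast_ne_zero.mpr hq.ne_zero))
  have hu : t ^ 2 - 2 * (q : T) - 1 - (q : T) ^ 2 = 0 := by
    have hh : τ e * ((2 * (q : T) ^ 2) * (t ^ 2 - 2 * (q : T) - 1 - (q : T) ^ 2)) = 0 := by
      linear_combination (t ^ 2 - 2 * (q : T)) * h0 - h2
    exact (mul_eq_zero.mp ((mul_eq_zero.mp hh).resolve_left he)).resolve_left hq2
  rcases mul_eq_zero.mp (show (t - ((q : T) + 1)) * (t + ((q : T) + 1)) = 0 by
    linear_combination hu) with h | h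
  · exact Or.inl (by rw [hchar, sub_eq_zero.mp h])
  · exact Or.inr (by rw [hchar, eq_neg_of_add_eq_zero_left h, C_neg]; ring)

end QuadraticTower

end Fermat.Agent.TraceFn
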