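/-
S35 from specialisations at good primes and the Frobenius relation on push-trivial classes at a
prime exactly dividing the level.
-/
import Fermat.Agent.TraceFn.BadPrimeInputs
import Fermat.Agent.TraceFn.LevelKill
import Fermat.Agent.TraceFn.FrobSquare
import Fermat.Agent.TraceFn.EichlerShimura
import Fermat.Agent.GAL.PointRep
import Fermat.Agent.MF.IntStruct.Hecke
import Fermat.Prelude.Def_CuspForm_Newforms

set_option autoImplicit false

noncomputable section

open ModularCurve Polynomial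
open scoped IsMulCommutative

namespace Fermat.Agent.TraceFn

local notation "Γℚ" => AlgebraicClosure ℚ ≃ₐ[ℚ] AlgebraicClosure ℚ

section Tower

variable {M : Type} [AddCommGroup M] [DistribMulAction Γℚ M] {R : Type} [CommRing R]
  {p : ℕ} {S : Finset ℕ} {a : ℕ → R} {f : R →+* AddMonoid.End M}
  {hcomm : ∀ (r : R) (σ : Γℚ) (x : M), f r (σ • x) = σ • f r x}
  {hfin : TorsionFiniteLevel M p}
  {hquad : ∀ ℓ : ℕ, ℓ.Prime → ℓ ∉ S → ∀ A : ValuationSubring (AlgebraicClosure ℚ),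
    A.LiesOverPrime ℓ → ∀ σ : Γℚ, A.IsFrobeniusAt σ ℓ → ∀ x : M, (∃ n : ℕ, p ^ n • x = 0) →
      σ • σ • x - f (a ℓ) (σ • x) + ℓ • x = 0}

theorem torsionTower_frob_sq (n : ℕ) (σ : Γℚ) (q : ℕ) (e : R)
    (h : ∀ x : M, (p ^ n) • x = 0 →
      σ • σ • (σ • σ • f e x - f e x) = (q ^ 2) • (σ • σ • f e x - f e x)) :
    (torsionTower M p S a f hcomm hfin hquad).act n e *
      ((torsionTower M p S a f hcomm hfin hquad).gal n σ ^ 4 -
        ((1 + q ^ 2 : ℕ) : Module.End ℤ _) * (torsionTower M p S a f hcomm hfin hquad).gal n σ ^ 2 +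
        ((q ^ 2 : ℕ) : Module.End ℤ _)) = 0 := by
  refine LinearMap.ext fun (x : torsLevel M p n) => Subtype.ext ?_
  show f e (σ • σ • σ • σ • (x : M) - ((((1 + q ^ 2 : ℕ) : Module.End ℤ (torsLevel M p n))
      ((galTors M p n σ ^ 2) x) : torsLevel M p n) : M) +
      ((((q ^ 2 : ℕ) : Module.End ℤ (torsLevel M p n)) x : torsLevel M p n) : M)) = 0
  rw [Module.End.natCast_apply, Module.End.natCast_apply, AddSubgroup.coe_nsmul,
    AddSubgroup.coe_nsmul]
  show f e (σ • σ • σ • σ • (x : M) - (1 + q ^ 2) • σ • σ • (x : M) + (q ^ 2) • (x : M)) = 0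
  have h' := h x.1 ((mem_torsLevel M).mp x.2)
  rw [smul_sub, smul_sub, nsmul_sub] at h'
  simp only [map_add, map_sub, map_nsmul, hcomm, add_nsmul, one_nsmul]
  calc _ = (σ • σ • σ • σ • f e (x : M) - σ • σ • f e (x : M)) -
        ((q ^ 2) • σ • σ • f e (x : M) - (q ^ 2) • f e (x : M)) := by abel
    _ = 0 := sub_eq_zero.mpr h'

end Tower

/-- A point of a Hecke algebra with values in characteristic zero is injective on the values. -/
theorem injective_of_range {N : ℕ} [NeZero N] {S : Set ℕ}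
    (χ : CuspForm.heckeAlgebra N 2 S →+* ℂ) {O : Type*} [CommRing O] [CharZero O] [IsDomain O]
    (iota : χ.range →+* O) : Function.Injective iota := by
  have := MF.IntStruct.moduleFinite_heckeAlgebra N 2 S
  have : Module.Finite ℤ χ.range := Module.Finite.of_surjective
    χ.rangeRestrict.toAddMonoidHom.toIntLinearMap χ.rangeRestrict_surjective
  have : Algebra.IsIntegral ℤ χ.range := Algebra.IsIntegral.of_finite ℤ _
  have : (RingHom.ker iota).IsPrime := RingHom.ker_isPrime iota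
  rw [RingHom.injective_iff_ker_eq_bot]
  refine Ideal.eq_bot_of_comap_eq_bot (R := ℤ) ?_
  rw [eq_bot_iff]
  intro a ha
  rw [Ideal.mem_comap, RingHom.mem_ker, eq_intCast, map_intCast, Int.cast_eq_zero] at ha
  exact Ideal.mem_bot.mpr ha

theorem exists_galoisRepAdic_charpoly_frobenius_of_inputs
    (hspec : ∀ (N p : ℕ) [NeZero N], HeckeOperatorsCommuteBar N →
      letI := heckeModuleBar N
      ∀ (_ : SMulCommClass (AlgebraicClosure ℚ ≃ₐ[ℚ] AlgebraicClosure ℚ) HeckeAlg (JZero N)),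
        SpecializationExists (K := ℚ) (L := AlgebraicClosure ℚ) N p (JZero N))
    (hfrob : ∀ (N' q p : ℕ) [NeZero N'] [NeZero q], q.Prime → p.Prime → q ≠ p → ¬ q ∣ N' →
      FrobeniusSqOnPushTrivial N' q p)
    {M : ℕ} [NeZero M] {g : CuspForm (CongruenceSubgroup.Gamma0 M) 2} (hg : g.IsNewform)
    (lam : ℕ) [Fact lam.Prime]
    (S : Finset ℕ)
    (O' : Type) [CommRing O'] [IsDomain O'] [IsDiscreteValuationRing O']
    [IsAdicComplete (IsLocalRing.maximalIdeal O') O'] [Finite (IsLocalRing.ResidueField O')]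
    [CharZero O'] (hlamO' : (lam : O') ∈ IsLocalRing.maximalIdeal O')
    (chig : CuspForm.heckeAlgebra M 2 (↑S : Set ℕ) →+* ℂ)
    (hchig : ∀ (ℓ : ℕ) (hℓ : ℓ.Prime) (hℓM : ¬ ℓ ∣ M) (hℓS : ℓ ∉ (↑S : Set ℕ)),
      chig (CuspForm.heckeAlgebra.T hℓ hℓM hℓS) = ModularFormClass.qCoeff g ℓ)
    (iota : chig.range →+* O')
    (hlamS : lam ∈ S) (hMS : ∀ q : ℕ, q.Prime → q ∣ M → q ∈ S) :
    ∃ (O'' : Type) (_ : CommRing O'') (_ : IsDomain O'') (_ : IsDiscreteValuationRing O'')
      (_ : IsAdicComplete (IsLocalRing.maximalIdeal O'') O'') (_ : Finite (IsLocalRing.ResidueField O''))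
      (_ : CharZero O'') (_ : Algebra O' O'') (_ : Module.Finite O' O'') (_ : IsLocalHom (algebraMap O' O'')),
      Function.Injective (algebraMap O' O'') ∧
      ∃ ρ : GaloisRepAdic O'',
        (∀ (ℓ : ℕ) (hℓ : ℓ.Prime) (hℓM : ¬ ℓ ∣ M) (hℓS : ℓ ∉ (↑S : Set ℕ)),
          ∀ A : ValuationSubring (AlgebraicClosure ℚ), A.LiesOverPrime ℓ →
            ∀ σ : AlgebraicClosure ℚ ≃ₐ[ℚ] AlgebraicClosure ℚ, A.IsFrobeniusAt σ ℓ →
              LinearMap.charpoly (ρ.ρ σ) =
                X ^ 2 - C (algebraMap O' O'' ((iota.comp chig.rangeRestrict) (CuspForm.heckeAlgebra.T hℓ hℓM hℓS))) * X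
                  + C ((ℓ : O''))) ∧
        (∀ q : ℕ, q.Prime → q ≠ lam → q ∣ M → ¬ q ^ 2 ∣ M →
          ∀ A : ValuationSubring (AlgebraicClosure ℚ), A.LiesOverPrime q →
            ∀ σ : AlgebraicClosure ℚ ≃ₐ[ℚ] AlgebraicClosure ℚ, A.IsFrobeniusAt σ q →
              LinearMap.charpoly (ρ.ρ σ) = X ^ 2 - C ((q : O'') + 1) * X + C ((q : O'')) ∨
              LinearMap.charpoly (ρ.ρ σ) = X ^ 2 + C ((q : O'') + 1) * X + C ((q : O''))) := by
  letI := heckeModuleBar M
  haveI hsc := Fermat.Agent.HK.Corr.smulCommClass_heckeModuleBar M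
  have hc := HK.Corr.heckeOperatorsCommuteBar M
  obtain ⟨hquad, hunr⟩ := GAL.torsion_properties_of_specializationExists M lam hc hsc
    (hspec M lam hc)
  obtain ⟨D⟩ := HK.exists_tateRep M lam
  obtain ⟨O'', _, _, _, _, _, _, _, _, _, hinj, ρ, hρ, -⟩ := GAL.exists_galoisRep_of_point D
    (HK.torsionFiniteLevel M lam) hquad hunr (MF.IntStruct.moduleFinite_heckeAlgebra M 2 ∅) S hlamS
    O' hlamO' (iota.comp chig.rangeRestrict)
  refine ⟨O'', ‹_›, ‹_›, ‹_›, ‹_›, ‹_›, ‹_›, ‹_›, ‹_›, ‹_›, hinj, ρ, hρ, ?_⟩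
  let τ : AwayHecke S →+* O'' :=
    ((algebraMap O' O'').comp (iota.comp chig.rangeRestrict)).comp (awayEval M S hMS)
  have hfinJ := jTorsFiniteLevel_of_torsionFiniteLevel M (HK.torsionFiniteLevel M lam)
  have hquadJ := jFrobeniusQuadratic_of_frobeniusQuadratic M lam
    (frobeniusQuadratic_of_specializationExists (hspec M lam hc hsc))
  let Tw := jzeroTower M S lam hlamS Fact.out hMS hfinJ hquadJ
  have hcompat : QuadraticTower.FrobCompatible (S := S) (a := awayGen S) ρ τ := by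
    intro ℓ hℓ hℓS A hA σ hσ
    have hℓM : ¬ ℓ ∣ M := fun h => hℓS (hMS ℓ hℓ h)
    have hℓS' : ℓ ∉ (↑S : Set ℕ) := by exact_mod_cast hℓS
    simp only [τ, RingHom.comp_apply, awayEval_awayGen M S hMS hℓ hℓM hℓS']
    exact hρ ℓ hℓ hℓM hℓS' A hA σ hσ
  have hsep : Tw.IsSeparating τ := by
    intro k
    obtain ⟨n, hn⟩ := HK.jHeckeFaithful M lam hMS k
    refine ⟨n, fun r hr => ?_⟩
    obtain ⟨t, ht⟩ := hn r fun x hx => torsionTower_act_eq_zero (M := JZero M) hr x hx
    rw [show τ r = algebraMap O' O'' (iota (chig.rangeRestrict ((lam ^ k) • t))) from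
      congrArg (fun z => algebraMap O' O'' (iota (chig.rangeRestrict z))) ht, map_nsmul, map_nsmul,
      map_nsmul, nsmul_eq_mul, Nat.cast_pow]
    refine Ideal.mul_mem_right _ _ (Ideal.pow_mem_pow ?_ k)
    rw [← map_natCast (algebraMap O' O'')]
    exact map_nonunit (algebraMap O' O'') (lam : O') hlamO'
  intro q hq hqlam hqM hq2 A hA σ hσ
  obtain ⟨N', rfl⟩ : ∃ N', M = N' * q := ⟨M / q, (Nat.div_mul_cancel hqM).symm⟩
  haveI : NeZero q := ⟨hq.ne_zero⟩
  haveI : NeZero N' := ⟨left_ne_zero_of_mul (NeZero.ne (N' * q))⟩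
  have hqN' : ¬ q ∣ N' := fun h => hq2 (by rw [pow_two]; exact mul_dvd_mul_right h q)
  have hN'S : ∀ r : ℕ, r.Prime → r ∣ N' → r ∈ S := fun r hr h => hMS r hr (h.mul_right q)
  obtain ⟨e, he0, hne⟩ := exists_kill_of_isNewform hg hMS hN'S
    (fun h => hqN' ((dvd_mul_left q N').trans h)) chig hchig
  refine Tw.charpoly_frobenius_steinberg ρ τ hlamS hcompat hsep hq hqlam hA hσ e ?_ fun n =>
    torsionTower_frob_sq n σ q e fun x hx => ?_
  · intro h0
    refine hne ?_
    simp only [τ, RingHom.comp_apply, map_eq_zero_iff _ hinj,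
      map_eq_zero_iff _ (injective_of_range chig iota)] at h0
    exact congrArg Subtype.val h0
  · have hx' : (lam ^ n) • jHecke (N' * q) (awayIncl S e) x = 0 := by
      rw [← map_nsmul, hx, map_zero]
    have h₁ : N' * 1 ∣ N' * q := mul_dvd_mul_left _ (one_dvd q)
    refine hfrob N' q lam hq Fact.out hqlam hqN' A hA σ hσ h₁ dvd_rfl _ ⟨n, hx'⟩ ?_ ?_
    all_goals
      rw [RingHom.comp_apply, degenPush_jHecke hq hMS _ (by first | exact one_dvd q | exact dvd_rfl)]
      exact jHecke_eq_zero_of_awayEval_eq_zero (p := lam) hN'S he0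
        (by rw [← map_nsmul, hx, map_zero])

end Fermat.Agent.TraceFn
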