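/-
The residual attachment of a Frey package at every level, from the existence of attached residual
representations.
-/
import Fermat.Agent.ECTorsion.Galois
import Fermat.Prelude.Def_FreyPackage_EigenformResidualAttachment
import Fermat.Prelude.Def_GaloisRep_Residual
import Mathlib.Algebra.Algebra.ZMod

set_option autoImplicit false

namespace Fermat.Agent.TraceFn

open Polynomial

local notation "Qbar" => AlgebraicClosure ℚ
local notation "Γℚ" => AlgebraicClosure ℚ ≃ₐ[ℚ] AlgebraicClosure ℚ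

theorem trace_and_det_of_charpoly {k : Type} [Field k] {V : Type} [AddCommGroup V] [Module k V]
    [Module.Finite k V] (h2 : Module.finrank k V = 2) {f : Module.End k V} {t d : k}
    (hf : LinearMap.charpoly f = X ^ 2 - C t * X + C d) :
    LinearMap.trace k V f = t ∧ LinearMap.det f = d := by
  classical
  let b := Module.finBasisOfFinrankEq k V h2
  refine ⟨?_, ?_⟩
  · rw [LinearMap.trace_eq_matrix_trace k b, Matrix.trace_eq_neg_charpoly_coeff,
      LinearMap.charpoly_toMatrix, hf, Fintype.card_fin]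
    norm_num [coeff_X_pow, coeff_C]
  · rw [← LinearMap.det_toMatrix b, Matrix.det_eq_sign_charpoly_coeff,
      LinearMap.charpoly_toMatrix, hf, Fintype.card_fin]
    norm_num [coeff_X_pow, coeff_C]

/-- The attachment statement, given residual representations attached to eigenforms. -/
theorem eigenformResidualAttachmentAt_of_exists_residualGaloisRep
    (hS29 : ∀ {N : ℕ} {g : CuspForm (CongruenceSubgroup.Gamma0 N) 2},
      g.IsNormalizedEigenform → ∀ {p : ℕ}, p.Prime → ∀ {k : Type} [Field k] [CharP k p]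
      (φ : integralClosure ℤ ℂ →+* k),
      ∃ ρ : ResidualGaloisRep k, ρ.IsAttachedTo g φ ∧
        ∀ ℓ : ℕ, ℓ.Prime → ¬ ℓ ∣ N * p → ρ.IsUnramifiedAt ℓ)
    (P : FreyPackage) : ∀ M : ℕ, 0 < M → P.EigenformResidualAttachmentAt M := by
  intro M _ g hg 𝔪 h𝔪 hp𝔪
  let k := integralClosure ℤ ℂ ⧸ 𝔪
  letI : Field k := Ideal.Quotient.field 𝔪
  let φ : integralClosure ℤ ℂ →+* k := Ideal.Quotient.mk 𝔪
  have : CharP k P.p := (CharP.charP_iff_prime_eq_zero P.pp).mpr
    (by rw [← map_natCast φ]; exact Ideal.Quotient.eq_zero_iff_mem.mpr hp𝔪)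
  letI : Algebra (ZMod P.p) k := ZMod.algebra k P.p
  obtain ⟨ρ, hρ, -⟩ := hS29 hg P.pp φ
  obtain ⟨L₁, hL₁, h₁⟩ := ρ.factorsThroughFiniteLevel
  obtain ⟨L₂, hL₂, h₂⟩ := ECTorsion.galoisFactorsThroughFiniteLevel_galoisRepModuleEnd
    P.freyCurve (ECTorsion.freyCurve_Δ_ne_zero P) P.pp.ne_zero
  have := hL₁
  have := hL₂
  have : FiniteDimensional ℚ ↥(L₁ ⊔ L₂) := IntermediateField.finiteDimensional_sup L₁ L₂
  let F : IntermediateField ℚ Qbar := IntermediateField.normalClosure ℚ ↥(L₁ ⊔ L₂) Qbar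
  have hle : L₁ ⊔ L₂ ≤ F := IntermediateField.le_normalClosure _
  have : FiniteDimensional ℚ F := normalClosure.is_finiteDimensional ℚ ↥(L₁ ⊔ L₂) Qbar
  have : NumberField F := { }
  have : Normal ℚ Qbar := @IsAlgClosure.normal ℚ Qbar _ _ _
    (IsAlgClosure.mk inferInstance (AlgebraicClosure.isAlgebraic ℚ))
  have : Normal ℚ F := normalClosure.normal ℚ ↥(L₁ ⊔ L₂) Qbar
  have : IsGalois ℚ F := IsGalois.mk
  refine ⟨k, inferInstance, inferInstance, ρ.V, inferInstance, inferInstance, ρ.ρ, φ, F,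
    inferInstance, inferInstance, inferInstance, inferInstance, inferInstance, ?_,
    ρ.finrank_eq, ?_, ?_, ?_⟩
  · intro x hx
    exact RingHom.mem_ker.mpr (Ideal.Quotient.eq_zero_iff_mem.mpr hx)
  · intro σ hσ
    have hfix : ∀ x ∈ F, σ x = x := fun x hx => by
      have h := AlgEquiv.restrictNormal_commutes σ F ⟨x, hx⟩
      rw [show σ.restrictNormal F = 1 from hσ] at h
      exact h.symm
    exact ⟨h₂ σ fun x hx => hfix x (hle ((le_sup_right : L₂ ≤ L₁ ⊔ L₂) hx)),
      h₁ σ fun x hx => hfix x (hle ((le_sup_left : L₁ ≤ L₁ ⊔ L₂) hx))⟩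
  all_goals
    intro ℓ hℓ hℓM hℓp A hA τ hτ
    have hℓk : (ℓ : k) ≠ 0 := fun h0 =>
      hℓp ((Nat.prime_dvd_prime_iff_eq P.pp hℓ).mp ((CharP.cast_eq_zero_iff k P.p ℓ).mp h0)).symm
    obtain ⟨a, ha, hc⟩ := hρ ℓ hℓ hℓM hℓk A hA τ hτ
    obtain ⟨ht, hd⟩ := trace_and_det_of_charpoly ρ.finrank_eq hc
    first
      | exact ⟨a, ha, ht⟩
      | exact hd

end Fermat.Agent.TraceFn
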